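import Mathlib.NumberTheory.Padics.Hensel
import Mathlib.NumberTheory.Padics.RingHoms

/-!
# Squares in `ℚ_p` and square classes

An element sufficiently near `1` is a square, so the square class of a non-zero `p`-adic number
is read off from the parity of its valuation and its unit part modulo `p ^ 3`.
-/

set_option autoImplicit false
set_option linter.style.haveILetI false

noncomputable section

open Polynomial Filter Topology

namespace FA.QuadForms

variable {p : ℕ} [hp : Fact p.Prime]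

theorem one_lt_prime_cast : (1 : ℝ) < p := Nat.one_lt_cast.2 hp.1.one_lt

/-- A `p`-adic number near enough to `1` is a square. -/
theorem isSquare_of_near_one {u : ℚ_[p]} (h : ‖u - 1‖ < ‖(4 : ℚ_[p])‖) : IsSquare u := by
  have h4 : ‖(4 : ℚ_[p])‖ ≤ 1 := by
    have := Padic.norm_int_le_one (p := p) 4
    simpa using this
  have hu : ‖u‖ ≤ 1 := by
    have h1 := Padic.nonarchimedean (u - 1) (1 : ℚ_[p])
    rw [sub_add_cancel, norm_one] at h1
    exact h1.trans (max_le (h.le.trans h4) le_rfl)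
  set u' : ℤ_[p] := ⟨u, hu⟩
  have key : ‖(X ^ 2 - C u' : ℤ_[p][X]).aeval (1 : ℤ_[p])‖ <
      ‖(X ^ 2 - C u' : ℤ_[p][X]).derivative.aeval (1 : ℤ_[p])‖ ^ 2 := by
    simp only [map_sub, map_pow, aeval_X, aeval_C, one_pow, derivative_pow,
      derivative_X, derivative_C, mul_one, sub_zero, map_mul, Algebra.algebraMap_self,
      RingHom.id_apply]
    rw [PadicInt.norm_def, PadicInt.norm_def, ← norm_pow]
    push_cast
    rw [norm_sub_rev]
    refine h.trans_le (le_of_eq (congrArg norm ?_))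
    change (4 : ℚ_[p]) = (((2 : ℕ) : ℤ_[p]) : ℚ_[p]) ^ 2
    rw [PadicInt.coe_natCast]
    norm_num
  obtain ⟨z, hz, -⟩ := hensels_lemma key
  simp only [map_sub, map_pow, aeval_X, aeval_C, Algebra.algebraMap_self, RingHom.id_apply,
    sub_eq_zero] at hz
  exact ⟨z, by rw [← PadicInt.coe_mul, ← pow_two, hz]⟩

theorem norm_four_ge : (p : ℝ) ^ (-2 : ℤ) ≤ ‖(4 : ℚ_[p])‖ := by
  rcases eq_or_ne p 2 with rfl | h2
  · rw [show (4 : ℚ_[2]) = ((2 : ℕ) : ℚ_[2]) ^ 2 by norm_num, norm_pow, Padic.norm_p, inv_pow,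
      zpow_neg]
    norm_cast
  · have h4 : ‖(4 : ℚ_[p])‖ = 1 := by
      have : ¬(p : ℤ) ∣ 4 := fun h => h2 ((Nat.prime_dvd_prime_iff_eq hp.1 Nat.prime_two).1
        (hp.1.dvd_of_dvd_pow (show p ∣ 2 ^ 2 by exact_mod_cast h)))
      rw [show (4 : ℚ_[p]) = ((4 : ℤ) : ℚ_[p]) by norm_num]
      refine le_antisymm (Padic.norm_int_le_one 4) (not_lt.1 fun hlt => this ?_)
      exact Padic.norm_intCast_lt_one_iff.1 hlt
    rw [h4]
    exact zpow_le_one_of_nonpos₀ one_lt_prime_cast.le (by norm_num)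

/-- Two units that agree modulo `p ^ 3` differ by a square. -/
theorem isSquare_div_of_unit {u v : ℚ_[p]} (hv : ‖v‖ = 1)
    (h : ‖u - v‖ ≤ (p : ℝ) ^ (-3 : ℤ)) : IsSquare (u / v) := by
  have hv0 : v ≠ 0 := norm_ne_zero_iff.1 (by rw [hv]; exact one_ne_zero)
  refine isSquare_of_near_one ?_
  rw [div_sub_one hv0, norm_div, hv, div_one]
  exact h.trans_lt ((zpow_lt_zpow_right₀ one_lt_prime_cast (by norm_num)).trans_le norm_four_ge)

theorem norm_intCast_eq_one {n : ℤ} (h : ¬(p : ℤ) ∣ n) : ‖(n : ℚ_[p])‖ = 1 :=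
  le_antisymm (Padic.norm_int_le_one n) (not_lt.1 fun h' => h (Padic.norm_intCast_lt_one_iff.1 h'))

theorem norm_le_of_dvd {n : ℤ} {k : ℕ} (h : (p : ℤ) ^ k ∣ n) :
    ‖(n : ℚ_[p])‖ ≤ (p : ℝ) ^ (-k : ℤ) :=
  (Padic.norm_int_le_pow_iff_dvd n k).2 (by exact_mod_cast h)

/-- An integer congruent modulo `p ^ 3` to a `p`-adic unit square times `m` differs from `m` by a
square. -/
theorem isSquare_intCast_div {m n : ℤ} (hm : ¬(p : ℤ) ∣ m) (h : (p : ℤ) ^ 3 ∣ n - m) :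
    IsSquare ((n : ℚ_[p]) / m) := by
  refine isSquare_div_of_unit (norm_intCast_eq_one hm) ?_
  have := norm_le_of_dvd h
  push_cast at this
  exact this

/-- For odd `p` a non-zero square modulo `p` is a square in `ℚ_p`. -/
theorem isSquare_of_residue (h2 : p ≠ 2) {n : ℤ} (hn : ¬(p : ℤ) ∣ n)
    (hsq : IsSquare (n : ZMod p)) : IsSquare (n : ℚ_[p]) := by
  obtain ⟨c, hc⟩ := hsq
  obtain ⟨m, rfl⟩ := ZMod.intCast_surjective c
  have hdvd : (p : ℤ) ∣ n - m * m := by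
    rw [← ZMod.intCast_zmod_eq_zero_iff_dvd, Int.cast_sub, Int.cast_mul, hc, sub_self]
  have hm : ¬(p : ℤ) ∣ m := fun h => hn (by
    simpa using dvd_add hdvd (h.mul_right m))
  have hm1 : ‖(m : ℚ_[p])‖ = 1 := norm_intCast_eq_one hm
  have hm0 : (m : ℚ_[p]) ≠ 0 := norm_ne_zero_iff.1 (by rw [hm1]; exact one_ne_zero)
  have h4 : ‖(4 : ℚ_[p])‖ = 1 := by
    have := norm_intCast_eq_one (p := p) (n := 4) fun h => h2
      ((Nat.prime_dvd_prime_iff_eq hp.1 Nat.prime_two).1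
        (hp.1.dvd_of_dvd_pow (show p ∣ 2 ^ 2 by exact_mod_cast h)))
    simpa using this
  have h : IsSquare ((n : ℚ_[p]) / ((m : ℚ_[p]) * m)) := by
    refine isSquare_of_near_one ?_
    rw [h4, div_sub_one (mul_ne_zero hm0 hm0), norm_div, norm_mul, hm1, one_mul, div_one]
    have := Padic.norm_intCast_lt_one_iff.2 hdvd
    push_cast at this
    exact this
  obtain ⟨s, hs⟩ := h
  refine ⟨s * m, ?_⟩
  rw [div_eq_iff (mul_ne_zero hm0 hm0)] at hs
  rw [hs]
  ring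

/-- An integer `≡ 1 (mod 8)` is a square in `ℚ_2`. -/
theorem isSquare_two_of_modEq {n : ℤ} (h : (8 : ℤ) ∣ n - 1) : IsSquare (n : ℚ_[2]) := by
  have := isSquare_intCast_div (p := 2) (m := 1) (n := n) (by norm_num) (by norm_num; exact h)
  simpa using this

/-- **Square classes**: a non-zero `x` is `p ^ α r` times a square for some `α ∈ {0, 1}` and an
integer `r` prime to `p`, and only `r` modulo `p ^ 3` matters. -/
theorem exists_squareClass {x : ℚ_[p]} (hx : x ≠ 0) : ∃ (α : ℕ) (r : ℤ), α < 2 ∧ ¬(p : ℤ) ∣ r ∧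
    ∀ r' : ℤ, (p : ℤ) ^ 3 ∣ r' - r →
      ∃ s : ℚ_[p], s ≠ 0 ∧ x = (r' : ℚ_[p]) * (p : ℚ_[p]) ^ α * s ^ 2 := by
  obtain ⟨k, α, hα, hv⟩ : ∃ (k : ℤ) (α : ℕ), α < 2 ∧ x.valuation = α + 2 * k :=
    ⟨x.valuation / 2, (x.valuation % 2).toNat, by omega, by omega⟩
  have hp0 : (p : ℚ_[p]) ≠ 0 := Nat.cast_ne_zero.2 hp.1.ne_zero
  set u := x / (p : ℚ_[p]) ^ (x.valuation) with hu
  have hu1 : ‖u‖ = 1 := by
    rw [hu, norm_div, Padic.norm_eq_zpow_neg_valuation hx, norm_zpow, Padic.norm_p, inv_zpow',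
      div_self (zpow_ne_zero _ (Nat.cast_ne_zero.2 hp.1.ne_zero))]
  set u' : ℤ_[p] := ⟨u, hu1.le⟩
  set r : ℤ := (u'.appr 3 : ℤ) with hr
  have hclose : ‖u - (r : ℚ_[p])‖ ≤ (p : ℝ) ^ (-3 : ℤ) := by
    have := (PadicInt.norm_le_pow_iff_mem_span_pow _ 3).2 (PadicInt.appr_spec 3 u')
    rw [PadicInt.norm_def] at this
    push_cast at this
    simpa [hr, u'] using this
  have hr1 : ¬(p : ℤ) ∣ r := fun h => by
    have h1 := Padic.norm_intCast_lt_one_iff.2 h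
    have h2 : ‖u - (r : ℚ_[p])‖ < 1 := hclose.trans_lt
      (zpow_lt_one_of_neg₀ one_lt_prime_cast (by norm_num))
    have h3 := Padic.nonarchimedean (u - (r : ℚ_[p])) (r : ℚ_[p])
    rw [sub_add_cancel, hu1] at h3
    exact absurd (h3.trans_lt (max_lt h2 h1)) (lt_irrefl 1)
  refine ⟨α, r, hα, hr1, fun r' hr' => ?_⟩
  have hr'1 : ¬(p : ℤ) ∣ r' := fun h => hr1 (by
    simpa using dvd_sub h ((dvd_pow_self (p : ℤ) (by norm_num : 3 ≠ 0)).trans hr'))
  have hsq : IsSquare (u / (r' : ℚ_[p])) := by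
    refine isSquare_div_of_unit (norm_intCast_eq_one hr'1) ?_
    have h1 := norm_le_of_dvd hr'
    push_cast at h1
    rw [norm_sub_rev] at h1
    calc ‖u - (r' : ℚ_[p])‖ = ‖(u - (r : ℚ_[p])) + ((r : ℚ_[p]) - r')‖ := by ring_nf
      _ ≤ _ := (Padic.nonarchimedean _ _).trans (max_le hclose h1)
  obtain ⟨s, hs⟩ := hsq
  have hr'0 : (r' : ℚ_[p]) ≠ 0 :=
    norm_ne_zero_iff.1 (by rw [norm_intCast_eq_one hr'1]; exact one_ne_zero)
  have hxu : x = u * (p : ℚ_[p]) ^ (x.valuation) := by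
    rw [hu, div_mul_cancel₀ _ (zpow_ne_zero _ hp0)]
  have hs0 : s ≠ 0 := fun h => by
    rw [h, mul_zero, div_eq_zero_iff, or_iff_left hr'0] at hs
    rw [hs, norm_zero] at hu1
    exact zero_ne_one hu1
  refine ⟨s * (p : ℚ_[p]) ^ k, mul_ne_zero hs0 (zpow_ne_zero _ hp0), ?_⟩
  rw [div_eq_iff hr'0] at hs
  rw [hxu, hs, hv, zpow_add₀ hp0, zpow_natCast, mul_comm 2 k, zpow_mul, zpow_ofNat]
  ring

/-- Numbers near a non-zero `t` differ from it by a square. -/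
theorem exists_isSquare_nhds {t : ℚ_[p]} (ht : t ≠ 0) :
    ∀ᶠ t' in 𝓝 t, t' ≠ 0 ∧ IsSquare (t' / t) := by
  refine Metric.eventually_nhds_iff.2 ⟨‖(4 : ℚ_[p])‖ * ‖t‖, ?_, fun t' h => ?_⟩
  · exact mul_pos (norm_pos_iff.2 (by norm_num)) (norm_pos_iff.2 ht)
  rw [dist_eq_norm, ← div_lt_iff₀ (norm_pos_iff.2 ht), ← norm_div, ← div_sub_one ht] at h
  refine ⟨fun h0 => ?_, isSquare_of_near_one h⟩
  rw [h0, zero_div, zero_sub, norm_neg, norm_one] at h
  have := Padic.norm_int_le_one (p := p) 4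
  norm_num at this
  exact absurd (h.trans_le this) (lt_irrefl 1)

end FA.QuadForms

end
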