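import Fermat.Agent.QuadForms.Isotropy
import Fermat.Agent.QuadForms.Squares
import Mathlib.Combinatorics.Pigeonhole
import Mathlib.FieldTheory.Finite.Basic

/-!
# Isotropy over `ℚ_p` and `ℝ`

Ternary forms with unit coefficients are isotropic for odd `p`, forms in at least five variables
for every `p`, and over `ℝ` exactly the indefinite forms.
-/

set_option autoImplicit false
set_option linter.style.haveILetI false

noncomputable section

open Finset

namespace FA.QuadForms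

variable {F : Type*} [Field F]

/-- An isotropic binary form with non-zero coefficients takes every value. -/
theorem exists_eq_of_binary_zero [CharZero F] {a b x y : F} (ha : a ≠ 0) (hb : b ≠ 0)
    (hne : x ≠ 0 ∨ y ≠ 0) (h : a * x ^ 2 + b * y ^ 2 = 0) (t : F) :
    ∃ X Y : F, a * X ^ 2 + b * Y ^ 2 = t := by
  have hx : x ≠ 0 := by
    rintro rfl
    rcases hne with h' | h'
    · exact h' rfl
    · simp [hb, h'] at h
  set k := t / (4 * a * x ^ 2) with hk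
  refine ⟨x * (1 + k), y * (1 - k), ?_⟩
  have : 4 * a * x ^ 2 * k = t := by rw [hk]; field_simp
  linear_combination (1 - k) ^ 2 * h + this

/-- Binary: `a x² + b y²` has a non-trivial zero iff `-a b` is a square. -/
theorem isotropic_two_iff {a b : F} (ha : a ≠ 0) :
    Isotropic ![a, b] ↔ IsSquare (-(a * b)) := by
  constructor
  · rintro ⟨x, hx, he⟩
    simp only [Fin.sum_univ_two, Matrix.cons_val_zero, Matrix.cons_val_one] at he
    have hy : x 1 ≠ 0 := fun h => by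
      rw [h] at he
      simp [ha] at he
      exact hx (funext fun i => by fin_cases i <;> simp [he, h])
    refine ⟨a * x 0 / x 1, ?_⟩
    field_simp
    linear_combination -he
  · rintro ⟨s, hs⟩
    refine ⟨![s / a, 1], fun h0 => one_ne_zero (α := F) (by simpa using congrFun h0 1), ?_⟩
    simp only [Fin.sum_univ_two, Matrix.cons_val_zero, Matrix.cons_val_one]
    field_simp
    linear_combination -hs

/-- Over `ℝ` isotropic means indefinite. -/
theorem isotropic_real_iff {ι : Type*} [Fintype ι] {a : ι → ℝ} (ha : ∀ i, a i ≠ 0) :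
    Isotropic a ↔ (∃ i, 0 < a i) ∧ ∃ j, a j < 0 := by
  classical
  constructor
  · rintro ⟨x, hx, he⟩
    obtain ⟨i, hi⟩ := Function.ne_iff.1 hx
    constructor
    · by_contra h
      push Not at h
      have h' : ∀ j ∈ univ, 0 ≤ -(a j * x j ^ 2) := fun j _ =>
        neg_nonneg.2 (mul_nonpos_of_nonpos_of_nonneg (h j) (sq_nonneg _))
      have := (sum_eq_zero_iff_of_nonneg h').1 (by rw [sum_neg_distrib, he, neg_zero]) i
        (mem_univ i)
      simp [ha i, show x i ≠ 0 from hi] at this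
    · by_contra h
      push Not at h
      have h' : ∀ j ∈ univ, 0 ≤ a j * x j ^ 2 := fun j _ => mul_nonneg (h j) (sq_nonneg _)
      have := (sum_eq_zero_iff_of_nonneg h').1 he i (mem_univ i)
      simp [ha i, show x i ≠ 0 from hi] at this
  · rintro ⟨⟨i, hi⟩, ⟨j, hj⟩⟩
    have hij : i ≠ j := fun h => absurd (h ▸ hi) (not_lt.2 hj.le)
    refine Isotropic.of_injective ![i, j] ?_ ?_
    · intro k l hkl
      fin_cases k <;> fin_cases l <;> simp_all [hij.symm]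
    · have e : (fun k => a (![i, j] k)) = ![a i, a j] := by
        funext k; fin_cases k <;> rfl
      rw [e, isotropic_two_iff (ha i)]
      exact ⟨√(-(a i * a j)), (Real.mul_self_sqrt
        (neg_nonneg.2 (mul_nonpos_of_nonneg_of_nonpos hi.le hj.le))).symm⟩

variable {p : ℕ} [hp : Fact p.Prime]

/-- For odd `p` and units `A`, `B` the conic `A x² + B y² = z²` has a point. -/
theorem iso3_of_units (h2 : p ≠ 2) {A B : ℤ} (hA : ¬(p : ℤ) ∣ A) (hB : ¬(p : ℤ) ∣ B) :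
    Iso3 (A : ℚ_[p]) (B : ℚ_[p]) := by
  have hA' : (A : ZMod p) ≠ 0 := fun h => hA ((ZMod.intCast_zmod_eq_zero_iff_dvd A p).1 h)
  have hB' : (B : ZMod p) ≠ 0 := fun h => hB ((ZMod.intCast_zmod_eq_zero_iff_dvd B p).1 h)
  obtain ⟨x, y, hxy⟩ := FiniteField.exists_root_sum_quadratic
    (f := Polynomial.C (A : ZMod p) * Polynomial.X ^ 2 - 1)
    (g := Polynomial.C (B : ZMod p) * Polynomial.X ^ 2)
    (by rw [← Polynomial.C_1, Polynomial.degree_sub_C (by
          rw [Polynomial.degree_C_mul_X_pow 2 hA']; norm_num),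
        Polynomial.degree_C_mul_X_pow 2 hA']; rfl)
    (by rw [Polynomial.degree_C_mul_X_pow 2 hB']; rfl)
    (by rw [ZMod.card p]; exact Nat.odd_iff.1 (hp.1.odd_of_ne_two h2))
  simp only [Polynomial.eval_sub, Polynomial.eval_mul, Polynomial.eval_C, Polynomial.eval_pow,
    Polynomial.eval_X, Polynomial.eval_one] at hxy
  have hsolve : ∀ {A B : ℤ}, ¬(p : ℤ) ∣ A → ∀ x y : ZMod p, x ≠ 0 →
      (A : ZMod p) * x ^ 2 + (B : ZMod p) * y ^ 2 = 1 → Iso3 (A : ℚ_[p]) (B : ℚ_[p]) := by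
    intro A B hA x y hx he
    obtain ⟨Y, rfl⟩ := ZMod.intCast_surjective y
    have hn : ((A * (1 - B * Y ^ 2) : ℤ) : ZMod p) = ((A : ZMod p) * x) ^ 2 := by
      push_cast
      linear_combination (A : ZMod p) * he.symm
    obtain ⟨s, hs⟩ := isSquare_of_residue h2 (n := A * (1 - B * Y ^ 2)) (fun h => by
      have h' := (ZMod.intCast_zmod_eq_zero_iff_dvd _ p).2 h
      rw [hn, sq_eq_zero_iff, mul_eq_zero] at h'
      exact h'.elim (fun e => hA ((ZMod.intCast_zmod_eq_zero_iff_dvd A p).1 e)) hx)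
      ⟨(A : ZMod p) * x, by rw [hn, pow_two]⟩
    have hA0 : (A : ℚ_[p]) ≠ 0 := Int.cast_ne_zero.2 fun h => hA (h ▸ dvd_zero _)
    refine ⟨s / A, Y, 1, Or.inr (Or.inr one_ne_zero), ?_⟩
    push_cast at hs
    field_simp
    linear_combination -hs
  rcases ne_or_eq x 0 with hx | rfl
  · exact hsolve hA x y hx (by linear_combination hxy)
  · refine (hsolve hB y 0 ?_ (by linear_combination hxy)).symm
    rintro rfl
    simp at hxy

/-- For odd `p` a ternary form with unit coefficients is isotropic. -/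
theorem isotropic_three_units (h2 : p ≠ 2) {A B C : ℤ} (hA : ¬(p : ℤ) ∣ A) (hB : ¬(p : ℤ) ∣ B)
    (hC : ¬(p : ℤ) ∣ C) : Isotropic ![(A : ℚ_[p]), (B : ℚ_[p]), (C : ℚ_[p])] := by
  have hP : Prime (p : ℤ) := Nat.prime_iff_prime_int.1 hp.1
  have hC0 : (C : ℚ_[p]) ≠ 0 := Int.cast_ne_zero.2 fun h => hC (h ▸ dvd_zero _)
  rw [isotropic_three_iff hC0]
  refine Iso3.of_sq hC0 hC0 ?_
  have h := iso3_of_units h2 (A := -(A * C)) (B := -(B * C))
    (by rw [dvd_neg]; exact fun h => (hP.dvd_or_dvd h).elim hA hC)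
    (by rw [dvd_neg]; exact fun h => (hP.dvd_or_dvd h).elim hB hC)
  push_cast at h
  have e : ∀ A : ℚ_[p], -A / (C : ℚ_[p]) * (C : ℚ_[p]) ^ 2 = -(A * C) := fun A => by field_simp
  rw [e, e]
  exact h

/-- The congruence modulo `8` behind isotropy in five variables. -/
theorem five_residues : ∀ u ∈ ({1, 3, 5, 7} : Finset ℕ), ∀ v ∈ ({1, 3, 5, 7} : Finset ℕ),
    ∀ c ∈ ({1, 2, 3, 5, 6, 7} : Finset ℕ), ∀ d ∈ ({1, 2, 3, 5, 6, 7} : Finset ℕ),
      ∃ e ∈ ({0, 1, 2} : Finset ℕ), ∃ f ∈ ({0, 1, 2} : Finset ℕ),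
      ∃ g ∈ ({0, 1, 2} : Finset ℕ), ∃ h ∈ ({0, 1, 2} : Finset ℕ),
        (1 + u * e ^ 2 + v * f ^ 2 + c * g ^ 2 + d * h ^ 2) % 8 = 0 := by
  decide

omit hp in
theorem isotropic_five_two {u₁ u₂ u₃ c d : ℤ} (h1 : ¬(2 : ℤ) ∣ u₁) (h2 : ¬(2 : ℤ) ∣ u₂)
    (h3 : ¬(2 : ℤ) ∣ u₃) (hc : ¬(4 : ℤ) ∣ c) (hd : ¬(4 : ℤ) ∣ d) :
    Isotropic ![(u₁ : ℚ_[2]), (u₂ : ℚ_[2]), (u₃ : ℚ_[2]), (c : ℚ_[2]), (d : ℚ_[2])] := by
  have hm : ∀ w : ℤ, ¬(2 : ℤ) ∣ u₁ * w ↔ ¬(2 : ℤ) ∣ w := fun w => by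
    rw [Int.prime_two.dvd_mul]; tauto
  have hodd : ∀ w : ℤ, ¬(2 : ℤ) ∣ w → (w % 8).toNat ∈ ({1, 3, 5, 7} : Finset ℕ) := fun w hw => by
    simp only [mem_insert, mem_singleton]; omega
  have hfour : ∀ w : ℤ, ¬(4 : ℤ) ∣ w →
      (u₁ * w % 8).toNat ∈ ({1, 2, 3, 5, 6, 7} : Finset ℕ) := fun w hw => by
    have : ¬(4 : ℤ) ∣ u₁ * w := fun h => hw ((IsCoprime.dvd_of_dvd_mul_left (by
      rw [Int.isCoprime_iff_gcd_eq_one, show (4 : ℤ) = 2 ^ 2 by norm_num]
      exact Int.isCoprime_iff_gcd_eq_one.1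
        (IsCoprime.pow_left ((Int.prime_two.irreducible.coprime_iff_not_dvd).2 h1))) h))
    simp only [mem_insert, mem_singleton]; omega
  obtain ⟨e, -, f, -, g, -, k, -, hk⟩ := five_residues _ (hodd _ ((hm u₂).2 h2)) _
    (hodd _ ((hm u₃).2 h3)) _ (hfour c hc) _ (hfour d hd)
  set N : ℤ := -(u₁ * (u₂ * (e : ℤ) ^ 2 + u₃ * (f : ℤ) ^ 2 + c * (g : ℤ) ^ 2 + d * (k : ℤ) ^ 2))
    with hN
  have hN8 : (8 : ℤ) ∣ N - 1 := by
    have hc8 : ∀ w : ℤ, ((w % 8).toNat : ℤ) = w % 8 := fun w => Int.toNat_of_nonneg (by omega)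
    have h := congrArg (fun n : ℕ => (n : ℤ)) hk
    simp only [Int.natCast_emod, Nat.cast_add, Nat.cast_mul, Nat.cast_pow, Nat.cast_one,
      Nat.cast_ofNat, Nat.cast_zero, hc8] at h
    have h' := Int.dvd_of_emod_eq_zero h
    have d1 := Int.dvd_self_sub_emod (x := u₁ * u₂) (m := 8)
    have d2 := Int.dvd_self_sub_emod (x := u₁ * u₃) (m := 8)
    have d3 := Int.dvd_self_sub_emod (x := u₁ * c) (m := 8)
    have d4 := Int.dvd_self_sub_emod (x := u₁ * d) (m := 8)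
    have := dvd_neg.2 (dvd_add h' (dvd_add (dvd_add (dvd_mul_of_dvd_left d1 ((e : ℤ) ^ 2))
      (dvd_mul_of_dvd_left d2 ((f : ℤ) ^ 2))) (dvd_add (dvd_mul_of_dvd_left d3 ((g : ℤ) ^ 2))
      (dvd_mul_of_dvd_left d4 ((k : ℤ) ^ 2)))))
    exact this.trans (dvd_of_eq (by rw [hN]; ring))
  obtain ⟨s, hs⟩ := isSquare_two_of_modEq hN8
  have hu0 : (u₁ : ℚ_[2]) ≠ 0 := Int.cast_ne_zero.2 fun h => h1 (h ▸ dvd_zero _)
  have hs0 : s ≠ 0 := fun h => by
    rw [h, mul_zero, Int.cast_eq_zero] at hs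
    omega
  refine ⟨![s / u₁, (e : ℚ_[2]), (f : ℚ_[2]), (g : ℚ_[2]), (k : ℚ_[2])],
    fun h0 => div_ne_zero hs0 hu0 (by simpa using congrFun h0 0), ?_⟩
  simp only [Fin.sum_univ_five, Matrix.cons_val_zero, Matrix.cons_val_one, Matrix.cons_val]
  rw [hN] at hs
  push_cast at hs
  field_simp
  linear_combination -hs

/-- Over `ℚ_p` every form in at least five variables is isotropic. -/
theorem isotropic_five {ι : Type*} [Fintype ι] (hι : 5 ≤ Fintype.card ι) (a : ι → ℚ_[p]) :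
    Isotropic a := by
  classical
  by_cases h0 : ∃ i, a i = 0
  · obtain ⟨i, hi⟩ := h0
    exact Isotropic.of_eq_zero hi
  push Not at h0
  choose α r hα hr hcl using fun i => exists_squareClass (h0 i)
  obtain ⟨β, -, hβ⟩ := exists_lt_card_fiber_of_mul_lt_card_of_maps_to
    (s := (univ : Finset ι)) (t := (univ : Finset (Fin 2)))
    (f := fun i => (⟨α i, hα i⟩ : Fin 2)) (n := 2) (fun i _ => mem_univ _)
    (by rw [card_univ, card_univ, Fintype.card_fin]; omega)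
  obtain ⟨T, hTsub, hT⟩ := exists_subset_card_eq (n := 3) hβ
  obtain ⟨i₁, i₂, i₃, h12, h13, h23, rfl⟩ := card_eq_three.1 hT
  have hmem : ∀ i ∈ ({i₁, i₂, i₃} : Finset ι), α i = (β : ℕ) := fun i hi =>
    congrArg Fin.val (mem_filter.1 (hTsub hi)).2
  have hp0 : (p : ℚ_[p]) ^ (β : ℕ) ≠ 0 := pow_ne_zero _ (Nat.cast_ne_zero.2 hp.1.ne_zero)
  refine Isotropic.of_smul (inv_ne_zero hp0) ?_
  set b : ι → ℚ_[p] := fun i => ((p : ℚ_[p]) ^ (β : ℕ))⁻¹ * a i
  have hunit : ∀ i ∈ ({i₁, i₂, i₃} : Finset ι), ∃ s, s ≠ 0 ∧ b i = (r i : ℚ_[p]) * s ^ 2 := by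
    intro i hi
    obtain ⟨s, hs, hs'⟩ := hcl i (r i) (by simp)
    refine ⟨s, hs, ?_⟩
    simp only [b, hs', hmem i hi]
    field_simp
  rcases ne_or_eq p 2 with h2 | rfl
  · have hv : Function.Injective ![i₁, i₂, i₃] := by
      intro k l hkl
      fin_cases k <;> fin_cases l <;> simp_all [Ne.symm h12, Ne.symm h13, Ne.symm h23]
    refine Isotropic.of_injective ![i₁, i₂, i₃] hv ?_
    choose s hs hs' using fun k : Fin 3 => hunit (![i₁, i₂, i₃] k) (by fin_cases k <;> simp)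
    refine Isotropic.of_sq (a := fun k => b (![i₁, i₂, i₃] k)) (fun k => (s k)⁻¹)
      (fun k => inv_ne_zero (hs k)) (b := ![(r i₁ : ℚ_[p]), (r i₂ : ℚ_[p]), (r i₃ : ℚ_[p])])
      (fun k => ?_) (isotropic_three_units h2 (hr i₁) (hr i₂) (hr i₃))
    fin_cases k <;> rw [hs', inv_pow, mul_assoc, mul_inv_cancel₀ (pow_ne_zero 2 (hs _)),
      mul_one] <;>
      rfl
  · obtain ⟨U, hU, -, hUcard⟩ := exists_subsuperset_card_eq
      (subset_univ ({i₁, i₂, i₃} : Finset ι)) (n := 5) (by rw [hT]; norm_num) hι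
    obtain ⟨i₄, i₅, h45, h45'⟩ := card_eq_two.1 (show (U \ {i₁, i₂, i₃}).card = 2 by
      rw [card_sdiff_of_subset hU, hUcard, hT])
    have h4 : i₄ ∉ ({i₁, i₂, i₃} : Finset ι) :=
      (mem_sdiff.1 (h45'.symm ▸ mem_insert_self i₄ {i₅})).2
    have h5 : i₅ ∉ ({i₁, i₂, i₃} : Finset ι) :=
      (mem_sdiff.1 (h45'.symm ▸ mem_insert_of_mem (mem_singleton_self i₅))).2
    simp only [mem_insert, mem_singleton, not_or] at h4 h5
    have hv : Function.Injective ![i₁, i₂, i₃, i₄, i₅] := by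
      intro k l hkl
      fin_cases k <;> fin_cases l <;> simp_all [Ne.symm h12, Ne.symm h13, Ne.symm h23, Ne.symm h45]
    have hb0 : ∀ i, b i ≠ 0 := fun i => mul_ne_zero (inv_ne_zero hp0) (h0 i)
    have hrep : ∀ i, ∃ c : ℤ, ∃ s : ℚ_[2], ¬(4 : ℤ) ∣ c ∧ s ≠ 0 ∧ b i = (c : ℚ_[2]) * s ^ 2 := by
      intro i
      obtain ⟨γ, w, hγ, hw, hwcl⟩ := exists_squareClass (hb0 i)
      obtain ⟨s, hs, hs'⟩ := hwcl w (by simp)
      refine ⟨w * 2 ^ γ, s, ?_, hs, by rw [hs']; push_cast; ring⟩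
      interval_cases γ <;> omega
    obtain ⟨c, s₄, hc, hs₄, he₄⟩ := hrep i₄
    obtain ⟨d, s₅, hd, hs₅, he₅⟩ := hrep i₅
    obtain ⟨s₁, hs₁, he₁⟩ := hunit i₁ (by simp)
    obtain ⟨s₂, hs₂, he₂⟩ := hunit i₂ (by simp)
    obtain ⟨s₃, hs₃, he₃⟩ := hunit i₃ (by simp)
    refine Isotropic.of_injective ![i₁, i₂, i₃, i₄, i₅] hv ?_
    refine Isotropic.of_sq (a := fun k => b (![i₁, i₂, i₃, i₄, i₅] k))
      ![s₁⁻¹, s₂⁻¹, s₃⁻¹, s₄⁻¹, s₅⁻¹] (fun k => by fin_cases k <;> simp [*]) (fun k => ?_)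
      (isotropic_five_two (by simpa using hr i₁) (by simpa using hr i₂) (by simpa using hr i₃)
        hc hd)
    fin_cases k <;> simp [*, inv_pow]

end FA.QuadForms

end
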