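import Mathlib.Algebra.BigOperators.Finprod
import Mathlib.NumberTheory.LegendreSymbol.JacobiSymbol
import Mathlib.NumberTheory.Padics.PadicVal.Basic

/-!
# Hilbert symbols of integers and their product formula

The symbol at the place `v` of two non-zero integers, given by the classical formula, the index
`0` standing for the real place; it is bimultiplicative and the product over all places is one,
which on generators is quadratic reciprocity with its two supplements.
-/

set_option autoImplicit false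
set_option linter.style.haveILetI false

noncomputable section

open Finset

namespace FA.QuadForms

/-- The part of `a` prime to `p`. -/
def unitPart (p : ℕ) (a : ℤ) : ℤ := a / (p : ℤ) ^ padicValInt p a

theorem pow_mul_unitPart (p : ℕ) (a : ℤ) :
    (p : ℤ) ^ padicValInt p a * unitPart p a = a :=
  Int.mul_ediv_cancel' (padicValInt_dvd a)

section

variable {p : ℕ} [hp : Fact p.Prime] {a b : ℤ}

theorem not_dvd_unitPart (ha : a ≠ 0) : ¬(p : ℤ) ∣ unitPart p a := by
  intro h
  have h1 : (p : ℤ) ^ (padicValInt p a + 1) ∣ a := by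
    conv_rhs => rw [← pow_mul_unitPart p a]
    rw [pow_succ]
    exact mul_dvd_mul_left _ h
  rcases (padicValInt_dvd_iff _ a).1 h1 with h2 | h2
  · exact ha h2
  · omega

theorem unitPart_mul (ha : a ≠ 0) (hb : b ≠ 0) :
    unitPart p (a * b) = unitPart p a * unitPart p b := by
  refine mul_left_cancel₀ (pow_ne_zero (padicValInt p (a * b))
    (Int.natCast_ne_zero.2 hp.1.ne_zero)) ?_
  rw [pow_mul_unitPart, padicValInt.mul ha hb, pow_add]
  conv_lhs => rw [← pow_mul_unitPart p a, ← pow_mul_unitPart p b]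
  ring

theorem unitPart_ne_zero (ha : a ≠ 0) : unitPart p a ≠ 0 :=
  fun h => not_dvd_unitPart (p := p) ha (h ▸ dvd_zero _)

omit hp in
theorem unitPart_of_not_dvd (h : ¬(p : ℤ) ∣ a) : padicValInt p a = 0 ∧ unitPart p a = a := by
  have h0 := padicValInt.eq_zero_of_not_dvd h
  exact ⟨h0, by rw [unitPart, h0, pow_zero, Int.ediv_one]⟩

theorem unitPart_self : padicValInt p (p : ℤ) = 1 ∧ unitPart p (p : ℤ) = 1 := by
  refine ⟨padicValInt_self, ?_⟩
  rw [unitPart, padicValInt_self, pow_one, Int.ediv_self (Int.natCast_ne_zero.2 hp.1.ne_zero)]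

theorem jacobi_unit_sq (ha : a ≠ 0) : jacobiSym (unitPart p a) p ^ 2 = 1 := by
  have hgcd : (unitPart p a).gcd p = 1 := by
    rw [Int.gcd_comm]
    exact (Nat.coprime_iff_gcd_eq_one).2 ((Nat.Prime.coprime_iff_not_dvd hp.1).2 fun h =>
      not_dvd_unitPart ha (Int.natCast_dvd.2 h))
  rcases jacobiSym.eq_one_or_neg_one hgcd with h | h <;> rw [h] <;> norm_num

end

/-- The symbol at an odd prime. -/
def symOdd (p : ℕ) (a b : ℤ) : ℤ :=
  jacobiSym (-1) p ^ (padicValInt p a * padicValInt p b) *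
    jacobiSym (unitPart p a) p ^ padicValInt p b * jacobiSym (unitPart p b) p ^ padicValInt p a

/-- `(-1) ^ ε(u) ε(v)` for odd `u`, `v`. -/
def sym4 (u v : ℤ) : ℤ := if u % 4 = 3 ∧ v % 4 = 3 then -1 else 1

/-- The symbol at `2`. -/
def symTwo (a b : ℤ) : ℤ :=
  sym4 (unitPart 2 a) (unitPart 2 b) *
    ZMod.χ₈ (unitPart 2 b : ℤ) ^ padicValInt 2 a * ZMod.χ₈ (unitPart 2 a : ℤ) ^ padicValInt 2 b

/-- The symbol at the real place. -/
def symReal (a b : ℤ) : ℤ := if a < 0 ∧ b < 0 then -1 else 1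

/-- The symbol at the place `v`, the real one for `v = 0`. -/
def sym (v : ℕ) (a b : ℤ) : ℤ :=
  if v = 0 then symReal a b else if v = 2 then symTwo a b else if v.Prime then symOdd v a b else 1

theorem sym_comm (v : ℕ) (a b : ℤ) : sym v a b = sym v b a := by
  unfold sym symReal symTwo symOdd sym4
  simp only [and_comm (a := a < 0), and_comm (a := unitPart 2 a % 4 = 3)]
  split_ifs <;> ring

theorem sym4_mul {u u' v : ℤ} (hu : u % 2 = 1) (hu' : u' % 2 = 1) :
    sym4 (u * u') v = sym4 u v * sym4 u' v := by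
  unfold sym4
  rw [Int.mul_emod u u' 4]
  rcases (show u % 4 = 1 ∨ u % 4 = 3 by omega) with h | h <;>
    rcases (show u' % 4 = 1 ∨ u' % 4 = 3 by omega) with h' | h' <;>
    rw [h, h'] <;> split_ifs <;> simp_all

theorem symReal_mul {a a' b : ℤ} (ha : a ≠ 0) (ha' : a' ≠ 0) :
    symReal (a * a') b = symReal a b * symReal a' b := by
  unfold symReal
  rcases lt_or_gt_of_ne ha with h | h <;> rcases lt_or_gt_of_ne ha' with h' | h'
  · simp [h, h', not_lt.2 (mul_pos_of_neg_of_neg h h').le]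
    split_ifs <;> norm_num
  · simp [h, not_lt.2 h'.le, mul_neg_of_neg_of_pos h h']
  · simp [not_lt.2 h.le, h', mul_neg_of_pos_of_neg h h']
  · simp [not_lt.2 h.le, not_lt.2 h'.le, not_lt.2 (mul_pos h h').le]

theorem odd_unitPart {a : ℤ} (ha : a ≠ 0) : unitPart 2 a % 2 = 1 := by
  have := not_dvd_unitPart (p := 2) ha
  rw [Nat.cast_ofNat] at this
  omega

theorem sym_mul_left (v : ℕ) {a a' b : ℤ} (ha : a ≠ 0) (ha' : a' ≠ 0) :
    sym v (a * a') b = sym v a b * sym v a' b := by
  unfold sym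
  split_ifs with h0 h2 hv
  · exact symReal_mul ha ha'
  · unfold symTwo
    rw [padicValInt.mul ha ha', unitPart_mul ha ha', sym4_mul (odd_unitPart ha) (odd_unitPart ha'),
      pow_add, Int.cast_mul, map_mul, mul_pow]
    ring
  · haveI := Fact.mk hv
    unfold symOdd
    rw [padicValInt.mul ha ha', unitPart_mul ha ha', jacobiSym.mul_left, add_mul, pow_add, pow_add,
      mul_pow]
    ring
  · rfl

theorem sym_mul_right (v : ℕ) {a b b' : ℤ} (hb : b ≠ 0) (hb' : b' ≠ 0) :
    sym v a (b * b') = sym v a b * sym v a b' := by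
  rw [sym_comm, sym_mul_left v hb hb', sym_comm v b a, sym_comm v b' a]

theorem jacobi_neg_one_sq (p : ℕ) : jacobiSym (-1) p ^ 2 = 1 := by
  have hgcd : (-1 : ℤ).gcd p = 1 := by simp
  rcases jacobiSym.eq_one_or_neg_one hgcd with h | h <;> rw [h] <;> norm_num

theorem sym_sq (v : ℕ) {a b : ℤ} (ha : a ≠ 0) (hb : b ≠ 0) : sym v a b ^ 2 = 1 := by
  unfold sym
  split_ifs with h0 h2 hv
  · unfold symReal; split_ifs <;> norm_num
  · unfold symTwo sym4
    have h : ∀ c : ℤ, c % 2 = 1 → ZMod.χ₈ (c : ℤ) ^ 2 = 1 := fun c hc => by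
      rw [ZMod.χ₈_int_eq_if_mod_eight]
      split_ifs <;> omega
    rw [mul_pow, mul_pow, ← pow_mul, ← pow_mul, mul_comm (padicValInt 2 a),
      mul_comm (padicValInt 2 b), pow_mul, pow_mul, h _ (odd_unitPart hb), h _ (odd_unitPart ha)]
    split_ifs <;> norm_num
  · haveI := Fact.mk hv
    unfold symOdd
    rw [mul_pow, mul_pow, pow_right_comm _ _ 2, pow_right_comm _ (padicValInt v b) 2,
      pow_right_comm _ (padicValInt v a) 2, jacobi_neg_one_sq, jacobi_unit_sq ha,
      jacobi_unit_sq hb]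
    simp
  · norm_num

/-- Squares do not matter. -/
theorem sym_mul_sq_left (v : ℕ) {a b s : ℤ} (ha : a ≠ 0) (hb : b ≠ 0) (hs : s ≠ 0) :
    sym v (a * s ^ 2) b = sym v a b := by
  rw [sym_mul_left v ha (pow_ne_zero 2 hs), pow_two s, sym_mul_left v hs hs, ← pow_two,
    sym_sq v hs hb, mul_one]

theorem sym_mul_sq_right (v : ℕ) {a b s : ℤ} (ha : a ≠ 0) (hb : b ≠ 0) (hs : s ≠ 0) :
    sym v a (b * s ^ 2) = sym v a b := by
  rw [sym_comm, sym_mul_sq_left v hb ha hs, sym_comm]

theorem sym_eq_one_of_not_dvd {v : ℕ} {a b : ℤ} (h0 : v ≠ 0) (h2 : v ≠ 2)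
    (ha : ¬(v : ℤ) ∣ a) (hb : ¬(v : ℤ) ∣ b) : sym v a b = 1 := by
  unfold sym
  rw [if_neg h0, if_neg h2]
  split_ifs with hv
  · haveI := Fact.mk hv
    unfold symOdd
    rw [(unitPart_of_not_dvd ha).1, (unitPart_of_not_dvd hb).1]
    simp
  · rfl

theorem finite_mulSupport_sym {a b : ℤ} (ha : a ≠ 0) (hb : b ≠ 0) :
    (Function.mulSupport fun v => sym v a b).Finite := by
  refine Set.Finite.subset (Finset.finite_toSet
    (insert 0 (insert 2 (a.natAbs.divisors ∪ b.natAbs.divisors)))) fun v hv => ?_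
  by_contra hmem
  simp only [Finset.mem_coe, Finset.mem_insert, Finset.mem_union, Nat.mem_divisors, ne_eq,
    Int.natAbs_eq_zero, not_or, ha, hb, not_false_eq_true, and_true] at hmem
  obtain ⟨h0, h2, h3, h4⟩ := hmem
  exact hv (sym_eq_one_of_not_dvd h0 h2 (fun h => h3 (Int.natCast_dvd.1 h))
    fun h => h4 (Int.natCast_dvd.1 h))

/-- The product of the symbols over all places. -/
def symProd (a b : ℤ) : ℤ := ∏ᶠ v, sym v a b

theorem symProd_mul_left {a a' b : ℤ} (ha : a ≠ 0) (ha' : a' ≠ 0) (hb : b ≠ 0) :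
    symProd (a * a') b = symProd a b * symProd a' b := by
  rw [symProd, symProd, symProd,
    ← finprod_mul_distrib (finite_mulSupport_sym ha hb) (finite_mulSupport_sym ha' hb)]
  exact finprod_congr fun v => sym_mul_left v ha ha'

theorem symProd_comm (a b : ℤ) : symProd a b = symProd b a := finprod_congr fun v => sym_comm v a b

theorem symProd_eq_prod {a b : ℤ} (s : Finset ℕ)
    (h : ∀ v, v ∉ s → v ≠ 0 ∧ v ≠ 2 ∧ (v.Prime → ¬(v : ℤ) ∣ a ∧ ¬(v : ℤ) ∣ b)) :
    symProd a b = ∏ v ∈ s, sym v a b := by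
  refine finprod_eq_prod_of_mulSupport_subset _ fun v hv => Finset.mem_coe.2 ?_
  by_contra hmem
  obtain ⟨h0, h2, h3⟩ := h v hmem
  by_cases hp : v.Prime
  · exact hv (sym_eq_one_of_not_dvd h0 h2 (h3 hp).1 (h3 hp).2)
  · refine hv ?_
    change sym v a b = 1
    rw [sym, if_neg h0, if_neg h2, if_neg hp]

theorem prime_not_dvd {v q : ℕ} (hv : v.Prime) (hq : q.Prime) (h : v ≠ q) :
    ¬(v : ℤ) ∣ (q : ℤ) := fun hd =>
  h ((Nat.prime_dvd_prime_iff_eq hv hq).1 (Int.natCast_dvd_natCast.1 hd))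

theorem not_dvd_neg_one {v : ℕ} (hv : v.Prime) : ¬(v : ℤ) ∣ (-1 : ℤ) := fun h =>
  hv.ne_one (Nat.dvd_one.1 (by simpa using Int.natCast_dvd.1 h))

theorem sym_zero (a b : ℤ) : sym 0 a b = symReal a b := if_pos rfl

theorem sym_two (a b : ℤ) : sym 2 a b = symTwo a b := by rw [sym, if_neg two_ne_zero, if_pos rfl]

theorem sym_odd {p : ℕ} (hp : p.Prime) (h2 : p ≠ 2) (a b : ℤ) : sym p a b = symOdd p a b := by
  rw [sym, if_neg hp.ne_zero, if_neg h2, if_pos hp]

theorem symReal_of_nonneg {a b : ℤ} (hb : 0 ≤ b) : symReal a b = 1 :=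
  if_neg fun h => absurd h.2 (not_lt.2 hb)

theorem symTwo_odd {a b : ℤ} (ha : ¬(2 : ℤ) ∣ a) (hb : ¬(2 : ℤ) ∣ b) :
    symTwo a b = sym4 a b := by
  obtain ⟨h1, h2⟩ := unitPart_of_not_dvd (p := 2) (a := a) (by exact_mod_cast ha)
  obtain ⟨h3, h4⟩ := unitPart_of_not_dvd (p := 2) (a := b) (by exact_mod_cast hb)
  simp [symTwo, h1, h2, h3, h4]

theorem symTwo_two_left {b : ℤ} (hb : ¬(2 : ℤ) ∣ b) : symTwo 2 b = ZMod.χ₈ (b : ℤ) := by
  obtain ⟨h1, h2⟩ := unitPart_self (p := 2)
  obtain ⟨h3, h4⟩ := unitPart_of_not_dvd (p := 2) (a := b) (by exact_mod_cast hb)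
  rw [Nat.cast_ofNat] at h1 h2
  simp [symTwo, sym4, h1, h2, h3, h4]

theorem sym_unit_self {p : ℕ} [Fact p.Prime] (h2 : p ≠ 2) {a : ℤ} (ha : ¬(p : ℤ) ∣ a) :
    sym p a p = jacobiSym a p := by
  obtain ⟨h1, h2'⟩ := unitPart_of_not_dvd ha
  obtain ⟨h3, h4⟩ := unitPart_self (p := p)
  simp [sym_odd (Fact.out : p.Prime) h2, symOdd, h1, h2', h3, h4]

theorem sym_self {p : ℕ} [Fact p.Prime] (h2 : p ≠ 2) : sym p p p = jacobiSym (-1) p := by
  obtain ⟨h3, h4⟩ := unitPart_self (p := p)
  simp [sym_odd (Fact.out : p.Prime) h2, symOdd, h3, h4]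

theorem not_two_dvd_prime {p : ℕ} (hp : p.Prime) (h2 : p ≠ 2) : ¬(2 : ℤ) ∣ (p : ℤ) := by
  obtain ⟨k, rfl⟩ := hp.odd_of_ne_two h2
  push_cast
  omega

theorem symProd_neg_one_prime {p : ℕ} (hp : p.Prime) (h2 : p ≠ 2) : symProd (-1) p = 1 := by
  haveI := Fact.mk hp
  rw [symProd_eq_prod {0, 2, p} fun v hv => by
    simp only [mem_insert, mem_singleton, not_or] at hv
    exact ⟨hv.1, hv.2.1, fun h => ⟨not_dvd_neg_one h, prime_not_dvd h hp hv.2.2⟩⟩]
  rw [prod_insert (by simp [hp.ne_zero.symm]), prod_pair (Ne.symm h2), sym_zero, sym_two,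
    symReal_of_nonneg (Int.natCast_nonneg p), one_mul,
    symTwo_odd (by norm_num) (not_two_dvd_prime hp h2), sym_unit_self h2 (not_dvd_neg_one hp),
    jacobiSym.at_neg_one (hp.odd_of_ne_two h2)]
  unfold sym4
  rcases (show p % 4 = 1 ∨ p % 4 = 3 by
    obtain ⟨k, rfl⟩ := hp.odd_of_ne_two h2; omega) with h | h
  · rw [ZMod.χ₄_nat_one_mod_four h, if_neg (by omega)]
    norm_num
  · rw [ZMod.χ₄_nat_three_mod_four h, if_pos (by omega)]
    norm_num

theorem symProd_two_prime {p : ℕ} (hp : p.Prime) (h2 : p ≠ 2) : symProd 2 p = 1 := by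
  haveI := Fact.mk hp
  have hnd : ¬(p : ℤ) ∣ 2 := prime_not_dvd hp Nat.prime_two h2
  rw [symProd_eq_prod {0, 2, p} fun v hv => by
    simp only [mem_insert, mem_singleton, not_or] at hv
    exact ⟨hv.1, hv.2.1,
      fun h => ⟨prime_not_dvd h Nat.prime_two hv.2.1, prime_not_dvd h hp hv.2.2⟩⟩]
  rw [prod_insert (by simp [hp.ne_zero.symm]), prod_pair (Ne.symm h2), sym_zero, sym_two,
    symReal_of_nonneg (Int.natCast_nonneg p), one_mul, symTwo_two_left (not_two_dvd_prime hp h2),
    sym_unit_self h2 hnd, jacobiSym.at_two (hp.odd_of_ne_two h2), Int.cast_natCast,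
    ZMod.χ₈_nat_eq_if_mod_eight]
  obtain ⟨k, rfl⟩ := hp.odd_of_ne_two h2
  split_ifs <;> omega

theorem symProd_self {p : ℕ} (hp : p.Prime) (h2 : p ≠ 2) : symProd p p = 1 := by
  haveI := Fact.mk hp
  rw [symProd_eq_prod {0, 2, p} fun v hv => by
    simp only [mem_insert, mem_singleton, not_or] at hv
    exact ⟨hv.1, hv.2.1, fun h => ⟨prime_not_dvd h hp hv.2.2, prime_not_dvd h hp hv.2.2⟩⟩]
  rw [prod_insert (by simp [hp.ne_zero.symm]), prod_pair (Ne.symm h2), sym_zero, sym_two,
    symReal_of_nonneg (Int.natCast_nonneg p), one_mul,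
    symTwo_odd (not_two_dvd_prime hp h2) (not_two_dvd_prime hp h2), sym_self h2,
    jacobiSym.at_neg_one (hp.odd_of_ne_two h2)]
  unfold sym4
  rcases (show p % 4 = 1 ∨ p % 4 = 3 by
    obtain ⟨k, rfl⟩ := hp.odd_of_ne_two h2; omega) with h | h
  · rw [ZMod.χ₄_nat_one_mod_four h, if_neg (by omega)]
    norm_num
  · rw [ZMod.χ₄_nat_three_mod_four h, if_pos (by omega)]
    norm_num

theorem symProd_pair {p q : ℕ} (hp : p.Prime) (hp2 : p ≠ 2) (hq : q.Prime) (hq2 : q ≠ 2)
    (hne : q ≠ p) : symProd q p = 1 := by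
  haveI := Fact.mk hp
  haveI := Fact.mk hq
  rw [symProd_eq_prod {0, 2, q, p} fun v hv => by
    simp only [mem_insert, mem_singleton, not_or] at hv
    exact ⟨hv.1, hv.2.1,
      fun h => ⟨prime_not_dvd h hq hv.2.2.1, prime_not_dvd h hp hv.2.2.2⟩⟩]
  rw [prod_insert (by simp [hp.ne_zero.symm, hq.ne_zero.symm]),
    prod_insert (by simp [Ne.symm hp2, Ne.symm hq2]), prod_pair hne, sym_zero, sym_two,
    symReal_of_nonneg (Int.natCast_nonneg p), one_mul,
    symTwo_odd (not_two_dvd_prime hq hq2) (not_two_dvd_prime hp hp2),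
    sym_comm q, sym_unit_self hq2 (prime_not_dvd hq hp hne),
    sym_unit_self hp2 (prime_not_dvd hp hq (Ne.symm hne))]
  have hgcd : (p : ℤ).gcd q = 1 := by
    rw [Int.gcd_natCast_natCast]
    exact (Nat.coprime_primes hp hq).2 (Ne.symm hne)
  rw [← jacobiSym.quadratic_reciprocity_if (Nat.odd_iff.1 (hq.odd_of_ne_two hq2))
    (Nat.odd_iff.1 (hp.odd_of_ne_two hp2))]
  unfold sym4
  rcases jacobiSym.eq_one_or_neg_one hgcd with e | e <;>
    simp only [e] <;> split_ifs <;> omega

theorem symProd_generators {g : ℤ} (hg : g = -1 ∨ ∃ p : ℕ, p.Prime ∧ g = p) {p : ℕ}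
    (hp : p.Prime) : symProd g p = 1 := by
  rcases eq_or_ne p 2 with rfl | h2
  · rcases hg with rfl | ⟨q, hq, rfl⟩
    · rw [symProd_eq_prod {0, 2} fun v hv => by
        simp only [mem_insert, mem_singleton, not_or] at hv
        exact ⟨hv.1, hv.2, fun h => ⟨not_dvd_neg_one h, prime_not_dvd h hp hv.2⟩⟩]
      rw [prod_pair (by norm_num), sym_zero, symReal_of_nonneg (by norm_num), one_mul, sym_comm,
        sym_two, Nat.cast_ofNat, symTwo_two_left (by norm_num)]
      rw [ZMod.χ₈_int_eq_if_mod_eight]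
      norm_num
    · rcases eq_or_ne q 2 with rfl | hq2
      · haveI := Fact.mk hp
        obtain ⟨h3, h4⟩ := unitPart_self (p := 2)
        rw [symProd_eq_prod {0, 2} fun v hv => by
          simp only [mem_insert, mem_singleton, not_or] at hv
          exact ⟨hv.1, hv.2, fun h => ⟨prime_not_dvd h hp hv.2, prime_not_dvd h hp hv.2⟩⟩]
        rw [prod_pair (by norm_num), sym_zero, symReal_of_nonneg (by norm_num), one_mul, sym_two,
          symTwo, h3, h4, sym4, if_neg (by norm_num)]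
        norm_num
      · rw [symProd_comm, Nat.cast_ofNat]
        exact symProd_two_prime hq hq2
  · rcases hg with rfl | ⟨q, hq, rfl⟩
    · exact symProd_neg_one_prime hp h2
    · rcases eq_or_ne q 2 with rfl | hq2
      · rw [Nat.cast_ofNat]
        exact symProd_two_prime hp h2
      · rcases eq_or_ne q p with rfl | hqp
        · exact symProd_self hp h2
        · exact symProd_pair hp h2 hq hq2 hqp

theorem symProd_neg_one : symProd (-1) (-1) = 1 := by
  rw [symProd_eq_prod {0, 2} fun v hv => by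
    simp only [mem_insert, mem_singleton, not_or] at hv
    exact ⟨hv.1, hv.2, fun h => ⟨not_dvd_neg_one h, not_dvd_neg_one h⟩⟩]
  rw [prod_pair (by norm_num), sym_zero, sym_two, symTwo_odd (by norm_num) (by norm_num)]
  norm_num [symReal, sym4]

/-- A property of non-zero integers preserved by products holds if it holds for the generators. -/
theorem induction_generators {P : ℤ → Prop} (h1 : P 1) (hneg : P (-1))
    (hprime : ∀ p : ℕ, p.Prime → P p) (hmul : ∀ a b : ℤ, a ≠ 0 → b ≠ 0 → P a → P b → P (a * b))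
    (a : ℤ) (ha : a ≠ 0) : P a := by
  have hnat : ∀ n : ℕ, n ≠ 0 → P n := by
    intro n
    induction n using induction_on_primes with
    | zero => intro h; exact absurd rfl h
    | one => intro _; simpa using h1
    | prime_mul p n hp ih =>
      intro h
      have hn : n ≠ 0 := right_ne_zero_of_mul h
      rw [Nat.cast_mul]
      exact hmul _ _ (Int.natCast_ne_zero.2 hp.ne_zero) (Int.natCast_ne_zero.2 hn) (hprime p hp)
        (ih hn)
  rcases Int.natAbs_eq a with h | h <;> rw [h]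
  · exact hnat _ (Int.natAbs_ne_zero.2 ha)
  · rw [neg_eq_neg_one_mul]
    exact hmul _ _ (by norm_num) (Int.natCast_ne_zero.2 (Int.natAbs_ne_zero.2 ha)) hneg
      (hnat _ (Int.natAbs_ne_zero.2 ha))

/-- **The product formula** (quadratic reciprocity). -/
theorem symProd_eq_one {a b : ℤ} (ha : a ≠ 0) (hb : b ≠ 0) : symProd a b = 1 := by
  have hone : ∀ c : ℤ, c ≠ 0 → symProd 1 c = 1 := fun c hc => by
    have h := symProd_mul_left one_ne_zero one_ne_zero hc
    rw [mul_one] at h
    have h' : symProd 1 c ≠ 0 := by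
      rw [symProd, finprod_eq_prod _ (finite_mulSupport_sym one_ne_zero hc)]
      exact prod_ne_zero_iff.2 fun v _ h0 => by
        have := sym_sq v one_ne_zero hc
        rw [h0] at this
        norm_num at this
    exact mul_left_cancel₀ h' (by rw [mul_one]; exact h.symm)
  refine induction_generators (P := fun a => symProd a b = 1) (hone b hb) ?_ (fun p hp => ?_)
    (fun x y hx hy h h' => by rw [symProd_mul_left hx hy hb, h, h', one_mul]) a ha
  · rw [symProd_comm]
    refine induction_generators (P := fun b => symProd b (-1) = 1) (hone _ (by norm_num))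
      symProd_neg_one (fun q hq => by rw [symProd_comm]; exact symProd_generators (Or.inl rfl) hq)
      (fun x y hx hy h h' => by rw [symProd_mul_left hx hy (by norm_num), h, h', one_mul]) b hb
  · rw [symProd_comm]
    have hp0 : (p : ℤ) ≠ 0 := Int.natCast_ne_zero.2 hp.ne_zero
    exact induction_generators (P := fun b => symProd b (p : ℤ) = 1) (hone _ hp0)
      (symProd_generators (Or.inl rfl) hp)
      (fun q hq => symProd_generators (Or.inr ⟨q, hq, rfl⟩) hp)
      (fun x y hx hy h h' => by rw [symProd_mul_left hx hy hp0, h, h', one_mul]) b hb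

/-- If the symbols at all places but `q` are one, so is the one at `q`. -/
theorem sym_eq_one_of_others {a b : ℤ} (ha : a ≠ 0) (hb : b ≠ 0) (q : ℕ)
    (h : ∀ v, v ≠ q → sym v a b = 1) : sym q a b = 1 := by
  have := symProd_eq_one ha hb
  rwa [symProd, finprod_eq_single _ q h] at this

end FA.QuadForms

end
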