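import Fermat.Agent.QuadForms.Isotropy
import Fermat.Agent.QuadForms.Symbol
import Mathlib.Analysis.Real.Sqrt
import Mathlib.Data.Nat.Squarefree
import Mathlib.NumberTheory.Padics.PadicIntegers
import Mathlib.NumberTheory.Padics.RingHoms

/-!
# Local solubility forces the symbol to be one

If `a x² + b y² = z²` has a non-trivial solution over `ℚ_p` (or `ℝ`) the symbol of `a`, `b` at
that place is one.
-/

set_option autoImplicit false
set_option linter.style.haveILetI false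

noncomputable section

namespace FA.QuadForms

variable {p : ℕ} [hp : Fact p.Prime] {a b : ℤ}

/-- A `p`-adic solution gives primitive solutions modulo every power of `p`. -/
theorem exists_primitive (h : Iso3 (a : ℚ_[p]) (b : ℚ_[p])) (k : ℕ) :
    ∃ x y z : ℤ, ¬((p : ℤ) ∣ x ∧ (p : ℤ) ∣ y ∧ (p : ℤ) ∣ z) ∧
      (p : ℤ) ^ k ∣ a * x ^ 2 + b * y ^ 2 - z ^ 2 := by
  obtain ⟨x, y, z, hne, he⟩ := h
  obtain ⟨m, hm, hm0⟩ : ∃ m ∈ [x, y, z], (∀ w ∈ [x, y, z], ‖w‖ ≤ ‖m‖) ∧ m ≠ 0 := by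
    classical
    obtain ⟨m, hm, hmax⟩ := Finset.exists_max_image [x, y, z].toFinset (fun w => ‖w‖) (by simp)
    simp only [List.mem_toFinset] at hm hmax
    refine ⟨m, hm, hmax, fun h0 => ?_⟩
    rw [h0, norm_zero] at hmax
    simp only [List.mem_cons, List.not_mem_nil, or_false, forall_eq_or_imp, forall_eq,
      norm_le_zero_iff] at hmax
    simp [hmax.1, hmax.2.1, hmax.2.2] at hne
  obtain ⟨hmax, hm0⟩ := hm0
  have hle : ∀ w ∈ [x, y, z], ‖w / m‖ ≤ 1 := fun w hw => by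
    rw [norm_div, div_le_one (norm_pos_iff.2 hm0)]
    exact hmax w hw
  set X : ℤ_[p] := ⟨x / m, hle x (by simp)⟩ with hX
  set Y : ℤ_[p] := ⟨y / m, hle y (by simp)⟩ with hY
  set Z : ℤ_[p] := ⟨z / m, hle z (by simp)⟩ with hZ
  have heq : (a : ℤ_[p]) * X ^ 2 + (b : ℤ_[p]) * Y ^ 2 - Z ^ 2 = 0 := by
    refine PadicInt.ext ?_
    push_cast
    simp only [hX, hY, hZ]
    field_simp
    linear_combination he
  have happ : ∀ W : ℤ_[p],
      PadicInt.toZModPow (k + 1) W = ((W.appr (k + 1) : ℤ) : ZMod (p ^ (k + 1))) := fun W => by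
    rw [Int.cast_natCast]; rfl
  refine ⟨X.appr (k + 1), Y.appr (k + 1), Z.appr (k + 1), fun hall => ?_, ?_⟩
  · have hsmall : ∀ W : ℤ_[p], (p : ℤ) ∣ (W.appr (k + 1) : ℤ) → ‖W‖ < 1 := fun W hW => by
      obtain ⟨c, hc⟩ : (p : ℤ_[p]) ∣ W - (W.appr (k + 1) : ℤ_[p]) :=
        (dvd_pow_self (p : ℤ_[p]) (Nat.succ_ne_zero k)).trans
          (Ideal.mem_span_singleton.1 (PadicInt.appr_spec (k + 1) W))
      obtain ⟨d, hd⟩ := Int.natCast_dvd_natCast.1 hW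
      rw [PadicInt.norm_lt_one_iff_dvd]
      exact ⟨c + d, by rw [mul_add, ← hc, hd]; push_cast; ring⟩
    have hm' : ‖m / m‖ = 1 := by rw [div_self hm0, norm_one]
    simp only [List.mem_cons, List.not_mem_nil, or_false] at hm
    rcases hm with rfl | rfl | rfl
    · exact absurd (hsmall X hall.1) (by rw [PadicInt.norm_def]; exact not_lt.2 hm'.ge)
    · exact absurd (hsmall Y hall.2.1) (by rw [PadicInt.norm_def]; exact not_lt.2 hm'.ge)
    · exact absurd (hsmall Z hall.2.2) (by rw [PadicInt.norm_def]; exact not_lt.2 hm'.ge)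
  · refine dvd_trans (pow_dvd_pow _ (Nat.le_succ k)) ?_
    have h := congrArg (PadicInt.toZModPow (k + 1)) heq
    rw [map_sub, map_add, map_mul, map_mul, map_pow, map_pow, map_pow, map_intCast, map_intCast,
      map_zero, happ, happ, happ, ← Int.cast_pow, ← Int.cast_pow, ← Int.cast_pow, ← Int.cast_mul,
      ← Int.cast_mul, ← Int.cast_add, ← Int.cast_sub, ZMod.intCast_zmod_eq_zero_iff_dvd] at h
    exact_mod_cast h

theorem unitPart_prime_mul {u : ℤ} (hu : ¬(p : ℤ) ∣ u) :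
    padicValInt p ((p : ℤ) * u) = 1 ∧ unitPart p ((p : ℤ) * u) = u := by
  have hu0 : u ≠ 0 := fun h => hu (h ▸ dvd_zero _)
  have hp0 : (p : ℤ) ≠ 0 := Int.natCast_ne_zero.2 hp.1.ne_zero
  obtain ⟨h1, h2⟩ := unitPart_of_not_dvd hu
  obtain ⟨h3, h4⟩ := unitPart_self (p := p)
  exact ⟨by rw [padicValInt.mul hp0 hu0, h1, h3],
    by rw [unitPart_mul hp0 hu0, h2, h4, one_mul]⟩

theorem jacobi_eq_one_of_sq {c w : ℤ} (hc : ¬(p : ℤ) ∣ c) (h : (p : ℤ) ∣ w ^ 2 - c) :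
    jacobiSym c p = 1 := by
  rw [← jacobiSym.legendreSym.to_jacobiSym,
    legendreSym.eq_one_iff p (fun h0 => hc ((ZMod.intCast_zmod_eq_zero_iff_dvd c p).1 h0))]
  refine ⟨(w : ZMod p), ?_⟩
  rw [← Int.cast_mul, ZMod.intCast_eq_intCast_iff, Int.modEq_iff_dvd, ← pow_two]
  exact h

theorem symOdd_eq_one_of_iso (ha : ¬(p : ℤ) ^ 2 ∣ a) (hb : ¬(p : ℤ) ^ 2 ∣ b)
    (h : Iso3 (a : ℚ_[p]) (b : ℚ_[p])) : symOdd p a b = 1 := by
  have hP : Prime (p : ℤ) := Nat.prime_iff_prime_int.1 hp.1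
  -- one coefficient divisible by `p`, the other not
  have key : ∀ {a b : ℤ}, ¬(p : ℤ) ^ 2 ∣ a → (p : ℤ) ∣ a → ¬(p : ℤ) ∣ b →
      Iso3 (a : ℚ_[p]) (b : ℚ_[p]) → jacobiSym b p = 1 := by
    intro a b ha hpa hpb h
    obtain ⟨x, y, z, hprim, hdvd⟩ := exists_primitive h 2
    obtain ⟨u, rfl⟩ := hpa
    have hu : ¬(p : ℤ) ∣ u := fun hu => ha (by rw [pow_two]; exact mul_dvd_mul_left _ hu)
    have h1 : (p : ℤ) ∣ b * y ^ 2 - z ^ 2 := by
      have := dvd_sub (dvd_trans (dvd_pow_self _ two_ne_zero) hdvd)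
        (dvd_mul_of_dvd_left (dvd_mul_right (p : ℤ) u) (x ^ 2))
      exact this.trans (dvd_of_eq (by ring))
    have hy : ¬(p : ℤ) ∣ y := fun hy => by
      have hz : (p : ℤ) ∣ z := hP.dvd_of_dvd_pow (n := 2) (by
        have := dvd_sub (dvd_mul_of_dvd_right (dvd_pow hy two_ne_zero) b) h1
        simpa using this)
      have h2 : (p : ℤ) ^ 2 ∣ (p : ℤ) * (u * x ^ 2) := by
        have := dvd_add (dvd_sub hdvd (dvd_mul_of_dvd_right (pow_dvd_pow_of_dvd hy 2) b))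
          (pow_dvd_pow_of_dvd hz 2)
        exact this.trans (dvd_of_eq (by ring))
      rw [pow_two, mul_dvd_mul_iff_left hP.ne_zero] at h2
      exact hprim ⟨hP.dvd_of_dvd_pow ((hP.dvd_or_dvd h2).resolve_left hu), hy, hz⟩
    obtain ⟨y', hy'⟩ : ∃ y' : ℤ, (p : ℤ) ∣ y' * y - 1 := by
      obtain ⟨u', v', huv⟩ := (hP.irreducible.coprime_iff_not_dvd).2 hy
      exact ⟨v', -u', by linear_combination huv⟩
    refine jacobi_eq_one_of_sq (w := z * y') hpb ?_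
    have := dvd_sub (dvd_mul_of_dvd_right hy' (b * (y' * y + 1))) (dvd_mul_of_dvd_right h1 (y' ^ 2))
    exact this.trans (dvd_of_eq (by ring))
  by_cases hpa : (p : ℤ) ∣ a <;> by_cases hpb : (p : ℤ) ∣ b
  · obtain ⟨x, y, z, hprim, hdvd⟩ := exists_primitive h 2
    obtain ⟨u, rfl⟩ := hpa
    obtain ⟨v, rfl⟩ := hpb
    have hu : ¬(p : ℤ) ∣ u := fun hu => ha (by rw [pow_two]; exact mul_dvd_mul_left _ hu)
    have hv : ¬(p : ℤ) ∣ v := fun hv => hb (by rw [pow_two]; exact mul_dvd_mul_left _ hv)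
    obtain ⟨hu1, hu2⟩ := unitPart_prime_mul hu
    obtain ⟨hv1, hv2⟩ := unitPart_prime_mul hv
    rw [symOdd, hu1, hu2, hv1, hv2, one_mul, pow_one, pow_one, pow_one, ← jacobiSym.mul_left,
      ← jacobiSym.mul_left]
    have hz : (p : ℤ) ∣ z := hP.dvd_of_dvd_pow (n := 2) (by
      have := dvd_sub (dvd_mul_right (p : ℤ) (u * x ^ 2 + v * y ^ 2))
        (dvd_trans (dvd_pow_self _ two_ne_zero) hdvd)
      exact this.trans (dvd_of_eq (by ring)))
    have h1 : (p : ℤ) ∣ u * x ^ 2 + v * y ^ 2 := by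
      have := dvd_add hdvd (pow_dvd_pow_of_dvd hz 2)
      rw [show (p : ℤ) * u * x ^ 2 + (p : ℤ) * v * y ^ 2 - z ^ 2 + z ^ 2 =
        (p : ℤ) * (u * x ^ 2 + v * y ^ 2) by ring, pow_two, mul_dvd_mul_iff_left hP.ne_zero] at this
      exact this
    have hx : ¬(p : ℤ) ∣ x := fun hx => hprim ⟨hx, hP.dvd_of_dvd_pow ((hP.dvd_or_dvd (by
      have := dvd_sub h1 (dvd_mul_of_dvd_right (dvd_pow hx two_ne_zero) u)
      simpa using this : (p : ℤ) ∣ v * y ^ 2)).resolve_left hv), hz⟩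
    obtain ⟨x', hx'⟩ : ∃ x' : ℤ, (p : ℤ) ∣ x' * x - 1 := by
      obtain ⟨u', v', huv⟩ := (hP.irreducible.coprime_iff_not_dvd).2 hx
      exact ⟨v', -u', by linear_combination huv⟩
    refine jacobi_eq_one_of_sq (w := v * y * x') ?_ ?_
    · rw [show (-1 : ℤ) * u * v = -(u * v) by ring, dvd_neg]
      exact fun h' => (hP.dvd_or_dvd h').elim hu hv
    · have := dvd_sub (dvd_mul_of_dvd_right h1 (v * x' ^ 2))
        (dvd_mul_of_dvd_right hx' (u * v * (x' * x + 1)))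
      exact this.trans (dvd_of_eq (by ring))
  · obtain ⟨h2, h3⟩ := unitPart_of_not_dvd hpb
    obtain ⟨u, rfl⟩ := hpa
    have hu : ¬(p : ℤ) ∣ u := fun hu => ha (by rw [pow_two]; exact mul_dvd_mul_left _ hu)
    obtain ⟨hu1, hu2⟩ := unitPart_prime_mul hu
    rw [symOdd, hu1, h2, h3, mul_zero, pow_zero, pow_zero, pow_one, one_mul, one_mul,
      key ha (dvd_mul_right _ _) hpb h]
  · obtain ⟨h2, h3⟩ := unitPart_of_not_dvd hpa
    obtain ⟨v, rfl⟩ := hpb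
    have hv : ¬(p : ℤ) ∣ v := fun hv => hb (by rw [pow_two]; exact mul_dvd_mul_left _ hv)
    obtain ⟨hv1, hv2⟩ := unitPart_prime_mul hv
    rw [symOdd, hv1, h2, h3, zero_mul, pow_zero, pow_zero, pow_one, one_mul, mul_one,
      key hb (dvd_mul_right _ _) hpa h.symm]
  · rw [symOdd, (unitPart_of_not_dvd hpa).1, (unitPart_of_not_dvd hpb).1]
    simp

omit hp in
theorem sq_emod_eight (x : ℤ) :
    (¬(2 : ℤ) ∣ x ∧ x ^ 2 % 8 = 1) ∨ ((2 : ℤ) ∣ x ∧ (x ^ 2 % 8 = 0 ∨ x ^ 2 % 8 = 4)) := by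
  have e : x ^ 2 % 8 = x % 8 * (x % 8) % 8 := by rw [pow_two, Int.mul_emod]
  rcases (show x % 8 = 0 ∨ x % 8 = 1 ∨ x % 8 = 2 ∨ x % 8 = 3 ∨ x % 8 = 4 ∨ x % 8 = 5 ∨
    x % 8 = 6 ∨ x % 8 = 7 by omega) with h | h | h | h | h | h | h | h <;> rw [h] at e <;> omega

omit hp in
/-- The congruences modulo `8` behind the symbol at `2`. -/
theorem two_adic_residues : ∀ u ∈ ({1, 3, 5, 7} : Finset ℕ), ∀ v ∈ ({1, 3, 5, 7} : Finset ℕ),
    ∀ r ∈ ({0, 1, 4} : Finset ℕ), ∀ s ∈ ({0, 1, 4} : Finset ℕ), ∀ t ∈ ({0, 1, 4} : Finset ℕ),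
      (r = 1 ∨ s = 1 ∨ t = 1) →
      ((2 * u * r + v * s) % 8 = t → ((u % 4 = 3 ∧ v % 4 = 3) ↔ (v = 3 ∨ v = 5))) ∧
      ((u * r + v * s) % 4 = t % 4 → ¬(u % 4 = 3 ∧ v % 4 = 3)) := by
  decide

theorem symTwo_eq_one_of_iso (ha : ¬(4 : ℤ) ∣ a) (hb : ¬(4 : ℤ) ∣ b)
    (h : Iso3 (a : ℚ_[2]) (b : ℚ_[2])) : symTwo a b = 1 := by
  have hmain : ∀ {u v x y z : ℤ}, ¬(2 : ℤ) ∣ u → ¬(2 : ℤ) ∣ v →
      ¬((2 : ℤ) ∣ x ∧ (2 : ℤ) ∣ y ∧ (2 : ℤ) ∣ z) →
      ((8 : ℤ) ∣ 2 * u * x ^ 2 + v * y ^ 2 - z ^ 2 →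
        ((u % 4 = 3 ∧ v % 4 = 3) ↔ (v % 8 = 3 ∨ v % 8 = 5))) ∧
      ((8 : ℤ) ∣ u * x ^ 2 + v * y ^ 2 - z ^ 2 → ¬(u % 4 = 3 ∧ v % 4 = 3)) := by
    intro u v x y z hu hv hprim
    have hodd : ∀ c : ℤ, ¬(2 : ℤ) ∣ c → (c % 8).toNat ∈ ({1, 3, 5, 7} : Finset ℕ) := fun c hc => by
      simp only [Finset.mem_insert, Finset.mem_singleton]; omega
    have hsq : ∀ c : ℤ, (c ^ 2 % 8).toNat ∈ ({0, 1, 4} : Finset ℕ) ∧
        ((c ^ 2 % 8).toNat = 1 ↔ ¬(2 : ℤ) ∣ c) := fun c => by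
      simp only [Finset.mem_insert, Finset.mem_singleton]
      rcases sq_emod_eight c with ⟨h, h'⟩ | ⟨h, h'⟩ <;> omega
    obtain ⟨k1, k2⟩ := two_adic_residues _ (hodd u hu) _ (hodd v hv) _ (hsq x).1 _ (hsq y).1 _
      (hsq z).1 (by rw [(hsq x).2, (hsq y).2, (hsq z).2]; tauto)
    have hu' : u % 8 = ((u % 8).toNat : ℤ) := (Int.toNat_of_nonneg (by omega)).symm
    have hv' : v % 8 = ((v % 8).toNat : ℤ) := (Int.toNat_of_nonneg (by omega)).symm
    have hx' : x ^ 2 % 8 = ((x ^ 2 % 8).toNat : ℤ) := (Int.toNat_of_nonneg (by omega)).symm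
    have hy' : y ^ 2 % 8 = ((y ^ 2 % 8).toNat : ℤ) := (Int.toNat_of_nonneg (by omega)).symm
    have hz' : z ^ 2 % 8 = ((z ^ 2 % 8).toNat : ℤ) := (Int.toNat_of_nonneg (by omega)).symm
    refine ⟨fun h8 => ?_, fun h8 => ?_⟩
    · have e : (2 * u * x ^ 2 + v * y ^ 2) % 8 =
          (2 * (u % 8) * (x ^ 2 % 8) + (v % 8) * (y ^ 2 % 8)) % 8 :=
        Int.ModEq.add ((((Int.mod_modEq u 8).symm.mul_left 2)).mul (Int.mod_modEq (x ^ 2) 8).symm)
          ((Int.mod_modEq v 8).symm.mul (Int.mod_modEq (y ^ 2) 8).symm)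
      have e' : (2 * (u % 8) * (x ^ 2 % 8) + (v % 8) * (y ^ 2 % 8)) % 8 = z ^ 2 % 8 := by
        rw [← e]
        exact Int.emod_eq_emod_iff_emod_sub_eq_zero.2 (Int.emod_eq_zero_of_dvd h8)
      rw [hu', hv', hx', hy', hz'] at e'
      have := k1 (by exact_mod_cast e')
      omega
    · have e : (u * x ^ 2 + v * y ^ 2) % 8 =
          ((u % 8) * (x ^ 2 % 8) + (v % 8) * (y ^ 2 % 8)) % 8 :=
        Int.ModEq.add ((Int.mod_modEq u 8).symm.mul (Int.mod_modEq (x ^ 2) 8).symm)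
          ((Int.mod_modEq v 8).symm.mul (Int.mod_modEq (y ^ 2) 8).symm)
      have e' : ((u % 8) * (x ^ 2 % 8) + (v % 8) * (y ^ 2 % 8)) % 8 = z ^ 2 % 8 := by
        rw [← e]
        exact Int.emod_eq_emod_iff_emod_sub_eq_zero.2 (Int.emod_eq_zero_of_dvd h8)
      rw [hu', hv', hx', hy', hz'] at e'
      have h4 : ((((u % 8).toNat * (x ^ 2 % 8).toNat +
          (v % 8).toNat * (y ^ 2 % 8).toNat : ℕ) : ℤ)) % 4 = ((z ^ 2 % 8).toNat : ℤ) % 4 := by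
        push_cast at e' ⊢
        omega
      have := k2 (by exact_mod_cast h4)
      omega
  -- one even coefficient
  have heven : ∀ {u v : ℤ}, ¬(2 : ℤ) ∣ u → ¬(2 : ℤ) ∣ v →
      Iso3 ((2 * u : ℤ) : ℚ_[2]) (v : ℚ_[2]) → symTwo (2 * u) v = 1 := by
    intro u v hu hv h
    obtain ⟨x, y, z, hprim, hdvd⟩ := exists_primitive h 3
    have key := (hmain (u := u) (v := v) (x := x) (y := y) (z := z) hu hv
      (by exact_mod_cast hprim)).1 (by exact_mod_cast hdvd)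
    obtain ⟨h1, h2⟩ := unitPart_prime_mul (p := 2) (u := u) (by exact_mod_cast hu)
    obtain ⟨h3, h4⟩ := unitPart_of_not_dvd (p := 2) (a := v) (by exact_mod_cast hv)
    rw [Nat.cast_ofNat] at h1 h2
    rw [symTwo, h1, h2, h3, h4, pow_one, pow_zero, mul_one, sym4, ZMod.χ₈_int_eq_if_mod_eight]
    split_ifs with e1 e2 e3 <;> omega
  by_cases h2a : (2 : ℤ) ∣ a <;> by_cases h2b : (2 : ℤ) ∣ b
  · obtain ⟨u, rfl⟩ := h2a
    obtain ⟨v, rfl⟩ := h2b
    have hu : ¬(2 : ℤ) ∣ u := fun hu => ha (by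
      rw [show (4 : ℤ) = 2 * 2 by norm_num]; exact mul_dvd_mul_left _ hu)
    have hv : ¬(2 : ℤ) ∣ v := fun hv => hb (by
      rw [show (4 : ℤ) = 2 * 2 by norm_num]; exact mul_dvd_mul_left _ hv)
    have hu0 : u ≠ 0 := fun h0 => hu (h0 ▸ dvd_zero _)
    have hv0 : v ≠ 0 := fun h0 => hv (h0 ▸ dvd_zero _)
    have huv : ¬(2 : ℤ) ∣ -(u * v) := by
      rw [dvd_neg]; exact fun h' => (Int.prime_two.dvd_or_dvd h').elim hu hv
    have h' : Iso3 ((2 * u : ℤ) : ℚ_[2]) ((-(u * v) : ℤ) : ℚ_[2]) := by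
      have hne : ((2 * u : ℤ) : ℚ_[2]) ≠ 0 := Int.cast_ne_zero.2 (mul_ne_zero two_ne_zero hu0)
      refine Iso3.of_sq one_ne_zero (two_ne_zero (α := ℚ_[2])) ?_
      convert h.neg_mul hne using 1 <;> push_cast <;> ring
    have key := heven hu huv h'
    have e1 : sym 2 (2 * u) (-(u * v)) = sym 2 (2 * u) (-(2 * u)) * sym 2 (2 * u) (2 * v) := by
      rw [← sym_mul_right 2 (neg_ne_zero.2 (mul_ne_zero two_ne_zero hu0))
        (mul_ne_zero two_ne_zero hv0), show -(2 * u) * (2 * v) = -(u * v) * 2 ^ 2 by ring,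
        sym_mul_sq_right 2 (mul_ne_zero two_ne_zero hu0) (neg_ne_zero.2 (mul_ne_zero hu0 hv0))
          two_ne_zero]
    have e2 : sym 2 (2 * u) (-(2 * u)) = 1 := by
      obtain ⟨h1, h2⟩ := unitPart_prime_mul (p := 2) (u := u) (by exact_mod_cast hu)
      obtain ⟨h3, h4⟩ := unitPart_prime_mul (p := 2) (u := -u) (by
        rw [dvd_neg]; exact_mod_cast hu)
      rw [Nat.cast_ofNat] at h1 h2 h3 h4
      rw [sym_two, show -(2 * u) = 2 * -u by ring, symTwo, h1, h2, h3, h4, pow_one, pow_one, sym4,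
        if_neg (by omega), one_mul, ← map_mul, ← Int.cast_mul, ZMod.χ₈_int_eq_if_mod_eight]
      have e : (-u * u) % 8 = 7 := by
        rcases sq_emod_eight u with ⟨-, h'⟩ | ⟨h', -⟩
        · rw [show -u * u = -(u ^ 2) by ring]; omega
        · exact absurd h' hu
      have e' : (-u * u) % 2 = 1 := by omega
      rw [if_neg (by omega), if_pos (Or.inr e)]
    rwa [sym_two, e2, one_mul, sym_two, key, eq_comm] at e1
  · obtain ⟨u, rfl⟩ := h2a
    exact heven (fun hu => ha (by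
      rw [show (4 : ℤ) = 2 * 2 by norm_num]; exact mul_dvd_mul_left _ hu)) h2b h
  · obtain ⟨v, rfl⟩ := h2b
    have := heven (fun hv => hb (by
      rw [show (4 : ℤ) = 2 * 2 by norm_num]; exact mul_dvd_mul_left _ hv)) h2a h.symm
    rwa [← sym_two, sym_comm, sym_two] at this
  · obtain ⟨x, y, z, hprim, hdvd⟩ := exists_primitive h 3
    have key := (hmain (u := a) (v := b) (x := x) (y := y) (z := z) h2a h2b
      (by exact_mod_cast hprim)).2 (by exact_mod_cast hdvd)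
    rw [symTwo_odd h2a h2b, sym4, if_neg key]

omit hp in
theorem exists_sq_mul_squarefree {a : ℤ} (ha : a ≠ 0) :
    ∃ c s : ℤ, a = c * s ^ 2 ∧ s ≠ 0 ∧ c ≠ 0 ∧ ∀ q : ℕ, q.Prime → ¬(q : ℤ) ^ 2 ∣ c := by
  obtain ⟨c, s, hcs, hc⟩ := Nat.sq_mul_squarefree a.natAbs
  have hs : s ≠ 0 := fun h => by
    rw [h, zero_pow two_ne_zero, zero_mul, eq_comm, Int.natAbs_eq_zero] at hcs; exact ha hcs
  refine ⟨a.sign * c, s, ?_, Int.natCast_ne_zero.2 hs,
    mul_ne_zero (fun h => ha (Int.sign_eq_zero_iff_zero.1 h)) (Int.natCast_ne_zero.2 hc.ne_zero),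
    fun q hq h => ?_⟩
  · conv_lhs => rw [← Int.sign_mul_natAbs a, ← hcs]
    push_cast
    ring
  · have := Int.natAbs_dvd_natAbs.2 h
    rw [Int.natAbs_pow, Int.natAbs_natCast, Int.natAbs_mul, Int.natAbs_natCast,
      Int.natAbs_sign_of_ne_zero ha, one_mul, pow_two] at this
    exact hq.ne_one (Nat.isUnit_iff.1 (hc q this))

/-- Solubility over `ℚ_p` forces the symbol at `p` to be one. -/
theorem sym_eq_one_of_iso (ha : a ≠ 0) (hb : b ≠ 0) (h : Iso3 (a : ℚ_[p]) (b : ℚ_[p])) :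
    sym p a b = 1 := by
  obtain ⟨c, s, rfl, hs, hc, hc'⟩ := exists_sq_mul_squarefree ha
  obtain ⟨d, t, rfl, ht, hd, hd'⟩ := exists_sq_mul_squarefree hb
  rw [sym_mul_sq_left p hc hb hs, sym_mul_sq_right p hc hd ht]
  push_cast at h
  replace h := h.of_sq (Int.cast_ne_zero.2 hs) (Int.cast_ne_zero.2 ht)
  rcases eq_or_ne p 2 with rfl | h2
  · rw [sym_two]
    exact symTwo_eq_one_of_iso (by simpa using hc' 2 Nat.prime_two)
      (by simpa using hd' 2 Nat.prime_two) h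
  · rw [sym_odd hp.1 h2]
    exact symOdd_eq_one_of_iso (hc' p hp.1) (hd' p hp.1) h

omit hp in
/-- Solubility over `ℝ` forces the real symbol to be one. -/
theorem sym_zero_eq_one_of_iso (h : Iso3 (a : ℝ) (b : ℝ)) : sym 0 a b = 1 := by
  rw [sym_zero, symReal]
  refine if_neg fun ⟨ha, hb⟩ => ?_
  obtain ⟨x, y, z, hne, he⟩ := h
  have ha' : (a : ℝ) < 0 := by exact_mod_cast ha
  have hb' : (b : ℝ) < 0 := by exact_mod_cast hb
  have hx : x = 0 := by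
    by_contra hx
    nlinarith [sq_pos_of_ne_zero hx, sq_nonneg y, sq_nonneg z, mul_nonpos_of_nonpos_of_nonneg
      hb'.le (sq_nonneg y), mul_neg_of_neg_of_pos ha' (sq_pos_of_ne_zero hx)]
  have hy : y = 0 := by
    by_contra hy
    nlinarith [sq_nonneg z, mul_nonpos_of_nonpos_of_nonneg ha'.le (sq_nonneg x),
      mul_neg_of_neg_of_pos hb' (sq_pos_of_ne_zero hy)]
  subst hx hy
  simp at he hne
  exact hne (sq_eq_zero_iff.1 he.symm)

end FA.QuadForms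

end
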