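import Fermat.Agent.QuadForms.Local
import Fermat.Agent.QuadForms.Necessary
import Mathlib.Data.Nat.ChineseRemainder

/-!
# The Hasse principle for ternary forms

Legendre's descent, and the consequence of the product formula that one odd prime may be left out
of the local hypotheses.
-/

set_option autoImplicit false
set_option linter.style.haveILetI false

noncomputable section

open Finset

namespace FA.QuadForms

/-- The local hypotheses at all places outside `q` for `a x² + b y² = z²`. -/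
def LocalIso3 (a b : ℤ) : Prop :=
  Iso3 (a : ℝ) (b : ℝ) ∧ ∀ (p : ℕ) [Fact p.Prime], Iso3 (a : ℚ_[p]) (b : ℚ_[p])

theorem LocalIso3.symm {a b : ℤ} (h : LocalIso3 a b) : LocalIso3 b a :=
  ⟨h.1.symm, fun p _ => (h.2 p).symm⟩

theorem LocalIso3.of_sq {a b s t : ℤ} (hs : s ≠ 0) (ht : t ≠ 0)
    (h : LocalIso3 (a * s ^ 2) (b * t ^ 2)) : LocalIso3 a b := by
  refine ⟨?_, fun p _ => ?_⟩
  · have := h.1
    push_cast at this
    exact this.of_sq (Int.cast_ne_zero.2 hs) (Int.cast_ne_zero.2 ht)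
  · have := h.2 p
    push_cast at this
    exact this.of_sq (Int.cast_ne_zero.2 hs) (Int.cast_ne_zero.2 ht)

theorem LocalIso3.of_norm {a b b' t : ℤ} (hb : b ≠ 0) (hbb : b * b' = t ^ 2 - a)
    (h : LocalIso3 a b) : LocalIso3 a b' := by
  refine ⟨h.1.of_norm (t := (t : ℝ)) (Int.cast_ne_zero.2 hb) (by exact_mod_cast hbb), fun p _ => ?_⟩
  exact (h.2 p).of_norm (t := (t : ℚ_[p])) (Int.cast_ne_zero.2 hb) (by exact_mod_cast hbb)

/-- At a prime dividing `b` exactly once `a` is a square modulo it. -/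
theorem exists_sq_mod {p : ℕ} [hp : Fact p.Prime] {a b : ℤ} (hb : ¬(p : ℤ) ^ 2 ∣ b)
    (hpb : (p : ℤ) ∣ b) (h : Iso3 (a : ℚ_[p]) (b : ℚ_[p])) : ∃ t : ℤ, (p : ℤ) ∣ t ^ 2 - a := by
  have hP : Prime (p : ℤ) := Nat.prime_iff_prime_int.1 hp.1
  obtain ⟨x, y, z, hprim, hdvd⟩ := exists_primitive h 2
  by_cases hpa : (p : ℤ) ∣ a
  · exact ⟨0, by simpa using hpa⟩
  obtain ⟨v, rfl⟩ := hpb
  have h1 : (p : ℤ) ∣ a * x ^ 2 - z ^ 2 :=
    (dvd_sub (dvd_trans (dvd_pow_self _ two_ne_zero) hdvd)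
      (dvd_mul_of_dvd_left (dvd_mul_right (p : ℤ) v) (y ^ 2))).trans (dvd_of_eq (by ring))
  have hx : ¬(p : ℤ) ∣ x := fun hx => by
    have hz : (p : ℤ) ∣ z := hP.dvd_of_dvd_pow (n := 2)
      ((dvd_sub (dvd_mul_of_dvd_right (dvd_pow hx two_ne_zero) a) h1).trans (dvd_of_eq (by ring)))
    have h2 : (p : ℤ) ^ 2 ∣ (p : ℤ) * (v * y ^ 2) :=
      (dvd_add (dvd_sub hdvd (dvd_mul_of_dvd_right (pow_dvd_pow_of_dvd hx 2) a))
        (pow_dvd_pow_of_dvd hz 2)).trans (dvd_of_eq (by ring))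
    rw [pow_two, mul_dvd_mul_iff_left hP.ne_zero] at h2
    have hv : ¬(p : ℤ) ∣ v := fun hv => hb (by rw [pow_two]; exact mul_dvd_mul_left _ hv)
    exact hprim ⟨hx, hP.dvd_of_dvd_pow ((hP.dvd_or_dvd h2).resolve_left hv), hz⟩
  obtain ⟨u', v', huv⟩ := (hP.irreducible.coprime_iff_not_dvd).2 hx
  refine ⟨z * v', ?_⟩
  exact (dvd_sub (dvd_mul_of_dvd_right (⟨-u', by linear_combination huv⟩ : (p : ℤ) ∣ v' * x - 1)
    (a * (v' * x + 1))) (dvd_mul_of_dvd_right h1 (v' ^ 2))).trans (dvd_of_eq (by ring))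

/-- `a` is a square modulo a squarefree `b`. -/
theorem exists_sq_modulo {a b : ℤ} (hb : ∀ p : ℕ, p.Prime → ¬(p : ℤ) ^ 2 ∣ b)
    (h : ∀ (p : ℕ) [Fact p.Prime], Iso3 (a : ℚ_[p]) (b : ℚ_[p])) : ∃ t : ℤ, b ∣ t ^ 2 - a := by
  classical
  set P := b.natAbs.primeFactors
  have hprime : ∀ p ∈ P, p.Prime := fun p hp => Nat.prime_of_mem_primeFactors hp
  have hloc : ∀ p ∈ P, ∃ t : ℤ, (p : ℤ) ∣ t ^ 2 - a := fun p hp => by
    haveI := Fact.mk (hprime p hp)
    exact exists_sq_mod (hb p (hprime p hp))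
      (Int.natCast_dvd.2 (Nat.dvd_of_mem_primeFactors hp)) (h p)
  choose! t ht using hloc
  let c := Nat.chineseRemainderOfFinset (fun p => (t p % (p : ℤ)).toNat) id P
    (fun p hp => (hprime p hp).ne_zero)
    (fun p hp q hq hpq => (Nat.coprime_primes (hprime p hp) (hprime q hq)).2 hpq)
  refine ⟨(c : ℕ), ?_⟩
  have hsf : Squarefree b.natAbs := by
    rw [Nat.squarefree_iff_prime_squarefree]
    intro p hp hd
    exact hb p hp (by rw [pow_two, ← Nat.cast_mul]; exact Int.natCast_dvd.2 hd)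
  have key : (∏ p ∈ P, p) ∣ (((c : ℕ) : ℤ) ^ 2 - a).natAbs := by
    refine Finset.prod_primes_dvd _ (fun p hp => (hprime p hp).prime) (fun p hp => ?_)
    rw [← Int.natCast_dvd]
    have h2 : ((c : ℕ) : ℤ) ≡ t p [ZMOD p] := by
      have := Int.natCast_modEq_iff.2 (c.2 p hp)
      rw [Int.toNat_of_nonneg (Int.emod_nonneg _ (Int.natCast_ne_zero.2 (hprime p hp).ne_zero))]
        at this
      exact this.trans (Int.mod_modEq _ _)
    exact (dvd_sub (ht p hp) (Int.modEq_iff_dvd.1 (h2.pow 2))).trans (dvd_of_eq (by ring))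
  rw [Nat.prod_primeFactors_of_squarefree hsf] at key
  exact Int.natAbs_dvd_natAbs.1 key

/-- **Legendre's theorem**: the Hasse principle for ternary forms. -/
theorem iso3_of_local (a b : ℤ) (ha : a ≠ 0) (hb : b ≠ 0) (h : LocalIso3 a b) :
    Iso3 (a : ℚ) (b : ℚ) := by
  induction hn : a.natAbs + b.natAbs using Nat.strong_induction_on generalizing a b with
  | _ n ih =>
  wlog hab : a.natAbs ≤ b.natAbs generalizing a b
  · exact (this b a hb ha h.symm (by omega) (not_le.1 hab).le).symm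
  obtain ⟨c, s, hbcs, hs, hc, hsf⟩ := exists_sq_mul_squarefree hb
  by_cases hs1 : s.natAbs = 1
  swap
  · have hlt : c.natAbs < b.natAbs := by
      rw [hbcs, Int.natAbs_mul, Int.natAbs_pow]
      have h1 : 1 < s.natAbs ^ 2 :=
        Nat.one_lt_pow two_ne_zero (by have := Int.natAbs_pos.2 hs; omega)
      exact lt_mul_of_one_lt_right (Int.natAbs_pos.2 hc) h1
    have hloc : LocalIso3 a c := LocalIso3.of_sq one_ne_zero hs (by
      rw [one_pow, mul_one, ← hbcs]; exact h)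
    have := (ih _ (by omega) a c ha hc hloc rfl).mul_sq (one_ne_zero (α := ℚ))
      (Int.cast_ne_zero.2 hs : (s : ℚ) ≠ 0)
    rw [one_pow, mul_one] at this
    rw [hbcs]
    push_cast
    exact this
  have hsf' : ∀ p : ℕ, p.Prime → ¬(p : ℤ) ^ 2 ∣ b := fun p hp hd => hsf p hp (by
    rw [hbcs, ← Int.natAbs_pow_two s, hs1, Nat.cast_one, one_pow, mul_one] at hd
    exact hd)
  by_cases hb1 : b.natAbs = 1
  · have ha1 : a.natAbs = 1 := by have := Int.natAbs_pos.2 ha; omega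
    rcases Int.natAbs_eq a with e | e <;> rw [ha1] at e <;>
      rcases Int.natAbs_eq b with e' | e' <;> rw [hb1] at e' <;> subst e e'
    · exact ⟨1, 0, 1, Or.inl one_ne_zero, by norm_num⟩
    · exact ⟨1, 0, 1, Or.inl one_ne_zero, by norm_num⟩
    · exact ⟨0, 1, 1, Or.inr (Or.inl one_ne_zero), by norm_num⟩
    · exfalso
      have := sym_zero_eq_one_of_iso h.1
      simp [sym_zero, symReal] at this
  obtain ⟨t₀, ht₀⟩ := exists_sq_modulo hsf' fun p _ => h.2 p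
  obtain ⟨t, ht, htb⟩ : ∃ t : ℤ, b ∣ t ^ 2 - a ∧ 2 * t.natAbs ≤ b.natAbs := by
    refine ⟨t₀.bmod b.natAbs, ?_, ?_⟩
    · have h1 : b ∣ t₀.bmod b.natAbs - t₀ :=
        Int.natAbs_dvd.1 (Int.dvd_bmod_sub_self)
      exact (dvd_add (dvd_mul_of_dvd_left h1 (t₀.bmod b.natAbs + t₀)) ht₀).trans
        (dvd_of_eq (by ring))
    · have hpos : 0 < b.natAbs := Int.natAbs_pos.2 hb
      have h1 := Int.bmod_lt (x := t₀) hpos
      have h2 := Int.le_bmod (x := t₀) hpos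
      omega
  obtain ⟨b', hb'⟩ := ht
  rcases eq_or_ne b' 0 with rfl | hb'0
  · exact ⟨1, 0, t, Or.inl one_ne_zero, by
      have : (t : ℚ) ^ 2 - a = 0 := by exact_mod_cast hb'.trans (mul_zero b)
      linear_combination -this⟩
  have hlt : b'.natAbs < b.natAbs := by
    have hb2 : 2 ≤ b.natAbs := by have := Int.natAbs_pos.2 hb; omega
    by_contra hle
    rw [not_lt] at hle
    have h1 : b.natAbs * b'.natAbs ≤ t.natAbs ^ 2 + a.natAbs := by
      rw [← Int.natAbs_mul, ← hb', ← Int.natAbs_pow]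
      exact Int.natAbs_sub_le _ _
    nlinarith [Nat.mul_le_mul htb htb, Nat.mul_le_mul_left b.natAbs hle]
  have hrec := ih _ (by omega) a b' ha hb'0 (h.of_norm hb hb'.symm) rfl
  refine hrec.of_norm (t := (t : ℚ)) (Int.cast_ne_zero.2 hb'0) ?_
  rw [mul_comm]
  exact_mod_cast hb'.symm

/-- At an odd prime the symbol decides solubility. -/
theorem iso3_of_sym {q : ℕ} [hq : Fact q.Prime] (h2 : q ≠ 2) {a b : ℤ} (ha : a ≠ 0) (hb : b ≠ 0)
    (h : sym q a b = 1) : Iso3 (a : ℚ_[q]) (b : ℚ_[q]) := by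
  have hP : Prime (q : ℤ) := Nat.prime_iff_prime_int.1 hq.1
  obtain ⟨c, s, rfl, hs, hc, hc'⟩ := exists_sq_mul_squarefree ha
  obtain ⟨d, t, rfl, ht, hd, hd'⟩ := exists_sq_mul_squarefree hb
  rw [sym_mul_sq_left q hc hb hs, sym_mul_sq_right q hc hd ht, sym_odd hq.1 h2] at h
  push_cast
  refine Iso3.mul_sq (Int.cast_ne_zero.2 hs) (Int.cast_ne_zero.2 ht) ?_
  have hsquare : ∀ w : ℤ, ¬(q : ℤ) ∣ w → jacobiSym w q = 1 → IsSquare (w : ℚ_[q]) := by
    intro w hw hj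
    refine isSquare_of_residue h2 hw ?_
    rw [← jacobiSym.legendreSym.to_jacobiSym, legendreSym.eq_one_iff q
      (fun h0 => hw ((ZMod.intCast_zmod_eq_zero_iff_dvd w q).1 h0))] at hj
    exact hj
  by_cases hqc : (q : ℤ) ∣ c <;> by_cases hqd : (q : ℤ) ∣ d
  · obtain ⟨u, rfl⟩ := hqc
    obtain ⟨v, rfl⟩ := hqd
    have hu : ¬(q : ℤ) ∣ u := fun hu => hc' q hq.1 (by rw [pow_two]; exact mul_dvd_mul_left _ hu)
    have hv : ¬(q : ℤ) ∣ v := fun hv => hd' q hq.1 (by rw [pow_two]; exact mul_dvd_mul_left _ hv)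
    obtain ⟨hu1, hu2⟩ := unitPart_prime_mul hu
    obtain ⟨hv1, hv2⟩ := unitPart_prime_mul hv
    rw [symOdd, hu1, hu2, hv1, hv2, one_mul, pow_one, pow_one, pow_one, ← jacobiSym.mul_left,
      ← jacobiSym.mul_left] at h
    obtain ⟨w, hw⟩ := hsquare _ (by
      rw [show (-1 : ℤ) * u * v = -(u * v) by ring, dvd_neg]
      exact fun h' => (hP.dvd_or_dvd h').elim hu hv) h
    have hv0 : (v : ℚ_[q]) ≠ 0 := Int.cast_ne_zero.2 fun e => hv (e ▸ dvd_zero _)
    refine ⟨v, w, 0, Or.inl hv0, ?_⟩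
    push_cast at hw ⊢
    linear_combination -(q : ℚ_[q]) * (v : ℚ_[q]) * hw
  · obtain ⟨h3, h4⟩ := unitPart_of_not_dvd hqd
    obtain ⟨u, rfl⟩ := hqc
    have hu : ¬(q : ℤ) ∣ u := fun hu => hc' q hq.1 (by rw [pow_two]; exact mul_dvd_mul_left _ hu)
    obtain ⟨hu1, hu2⟩ := unitPart_prime_mul hu
    rw [symOdd, hu1, h3, h4, mul_zero, pow_zero, pow_zero, pow_one, one_mul, one_mul] at h
    obtain ⟨w, hw⟩ := hsquare d hqd h
    exact ⟨0, 1, w, Or.inr (Or.inl one_ne_zero), by linear_combination hw⟩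
  · obtain ⟨h3, h4⟩ := unitPart_of_not_dvd hqc
    obtain ⟨v, rfl⟩ := hqd
    have hv : ¬(q : ℤ) ∣ v := fun hv => hd' q hq.1 (by rw [pow_two]; exact mul_dvd_mul_left _ hv)
    obtain ⟨hv1, hv2⟩ := unitPart_prime_mul hv
    rw [symOdd, hv1, h3, h4, zero_mul, pow_zero, pow_zero, pow_one, one_mul, mul_one] at h
    obtain ⟨w, hw⟩ := hsquare c hqc h
    exact ⟨1, 0, w, Or.inl one_ne_zero, by linear_combination hw⟩
  · exact iso3_of_units h2 hqc hqd

/-- **Reciprocity**: one odd prime may be left out of the local conditions. -/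
theorem localIso3_of_others {a b : ℤ} (ha : a ≠ 0) (hb : b ≠ 0) {q : ℕ} [hq : Fact q.Prime]
    (h2 : q ≠ 2) (hR : Iso3 (a : ℝ) (b : ℝ))
    (h : ∀ (p : ℕ) [Fact p.Prime], p ≠ q → Iso3 (a : ℚ_[p]) (b : ℚ_[p])) : LocalIso3 a b := by
  refine ⟨hR, fun p hp => ?_⟩
  by_cases hpq : p = q
  · subst hpq
    refine iso3_of_sym h2 ha hb (sym_eq_one_of_others ha hb p fun v hv => ?_)
    by_cases hv0 : v = 0
    · subst hv0
      exact sym_zero_eq_one_of_iso hR
    by_cases hvp : v.Prime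
    · haveI := Fact.mk hvp
      exact sym_eq_one_of_iso ha hb (h v hv)
    · rw [sym, if_neg hv0, if_neg (fun e : v = 2 => hvp (e ▸ Nat.prime_two)), if_neg hvp]
  · exact h p hpq

end FA.QuadForms

end
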