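import Fermat.Agent.QuadForms.Main
import Mathlib.LinearAlgebra.Matrix.BilinearForm
import Mathlib.LinearAlgebra.QuadraticForm.Basic
import Mathlib.Topology.Algebra.InfiniteSum.Real

/-!
# Hasse–Minkowski for an arbitrary quadratic form

A form given by a matrix over `ℚ` is diagonalised over `ℚ`, compatibly with every extension of
fields.
-/

set_option autoImplicit false
set_option linter.style.haveILetI false

noncomputable section

open Finset Matrix Module

namespace FA.QuadForms

variable {n : Type*} [Fintype n] [DecidableEq n]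

/-- `x ↦ xᵀ M x` has a non-trivial zero in `K`. -/
def MatrixIsotropic (K : Type*) [Field K] [CharZero K] (M : Matrix n n ℚ) : Prop :=
  ∃ x : n → K, x ≠ 0 ∧ x ⬝ᵥ (M.map (Rat.cast : ℚ → K)) *ᵥ x = 0

/-- The rational symmetrisation. -/
def symPart (M : Matrix n n ℚ) : Matrix n n ℚ := (2 : ℚ)⁻¹ • (M + Mᵀ)

omit [DecidableEq n] in
theorem dotProduct_symPart {K : Type*} [Field K] [CharZero K] (M : Matrix n n ℚ) (x : n → K) :
    x ⬝ᵥ ((symPart M).map (Rat.castHom K)) *ᵥ x = x ⬝ᵥ (M.map (Rat.castHom K)) *ᵥ x := by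
  have h : (symPart M).map (Rat.castHom K) =
      (2 : K)⁻¹ • (M.map (Rat.castHom K) + (M.map (Rat.castHom K))ᵀ) := by
    ext i j
    simp [symPart, mul_add]
  rw [h, smul_mulVec, dotProduct_smul, add_mulVec, dotProduct_add, dotProduct_transpose_mulVec,
    smul_eq_mul]
  rw [← two_mul, ← mul_assoc, inv_mul_cancel₀ two_ne_zero, one_mul]

/-- A rational diagonalisation with its inverse. -/
theorem exists_diagonalisation (M : Matrix n n ℚ) :
    ∃ (d : ℕ) (w : Fin d → ℚ) (P : Matrix (Fin d) n ℚ) (R : Matrix n (Fin d) ℚ),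
      R * P = 1 ∧ P * R = 1 ∧ Pᵀ * Matrix.diagonal w * P = symPart M := by
  set B : LinearMap.BilinForm ℚ (n → ℚ) := Matrix.toBilin' (symPart M)
  have hB : LinearMap.IsSymm B := by
    refine ⟨fun x y => ?_⟩
    change B x y = B y x
    simp only [B, Matrix.toBilin'_apply']
    have hS : (symPart M)ᵀ = symPart M := by
      rw [symPart, transpose_smul, transpose_add, transpose_transpose, add_comm]
    conv_rhs => rw [← hS, dotProduct_transpose_mulVec]
  haveI : Invertible (2 : ℚ) := invertibleOfNonzero two_ne_zero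
  obtain ⟨v, hv⟩ := LinearMap.BilinForm.exists_orthogonal_basis hB
  refine ⟨_, fun i => B (v i) (v i), v.toMatrix (Pi.basisFun ℚ n), (Pi.basisFun ℚ n).toMatrix v,
    Basis.toMatrix_mul_toMatrix_flip _ _, Basis.toMatrix_mul_toMatrix_flip _ _, ?_⟩
  have hdiag : LinearMap.BilinForm.toMatrix v B = Matrix.diagonal fun i => B (v i) (v i) := by
    ext i j
    rw [LinearMap.BilinForm.toMatrix_apply, Matrix.diagonal_apply]
    split_ifs with h
    · rw [h]
    · exact hv h
  rw [← hdiag, LinearMap.BilinForm.toMatrix_mul_basis_toMatrix,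
    LinearMap.BilinForm.toMatrix_basisFun]
  simp [B]

theorem exists_matrixIsotropic_iff (M : Matrix n n ℚ) : ∃ (d : ℕ) (w : Fin d → ℚ),
    d = Fintype.card n ∧ ∀ (K : Type) [Field K] [CharZero K],
      MatrixIsotropic K M ↔ Isotropic fun i => (w i : K) := by
  obtain ⟨d, w, P, R, hRP, hPR, hM⟩ := exists_diagonalisation M
  refine ⟨d, w, by simpa using (Matrix.square_of_invertible P R hPR hRP), fun K _ _ => ?_⟩
  set f : ℚ →+* K := Rat.castHom K
  have hval : ∀ x : n → K,
      x ⬝ᵥ (M.map f) *ᵥ x = ∑ i, f (w i) * ((P.map f) *ᵥ x) i ^ 2 := by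
    intro x
    rw [← dotProduct_symPart M x, ← hM, Matrix.map_mul, Matrix.map_mul,
      Matrix.diagonal_map (map_zero f), ← Matrix.mulVec_mulVec, ← Matrix.mulVec_mulVec,
      Matrix.transpose_map, dotProduct_transpose_mulVec]
    simp only [dotProduct, mulVec_diagonal]
    exact sum_congr rfl fun i _ => by ring
  constructor
  · rintro ⟨x, hx, he⟩
    refine ⟨(P.map f) *ᵥ x, fun h0 => hx ?_, (hval x).symm.trans he⟩
    have := congrArg (fun y => (R.map f) *ᵥ y) h0
    simpa [Matrix.mulVec_mulVec, ← Matrix.map_mul, hRP] using this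
  · rintro ⟨y, hy, he⟩
    refine ⟨(R.map f) *ᵥ y, fun h0 => hy ?_, (hval _).trans ?_⟩
    · have := congrArg (fun x => (P.map f) *ᵥ x) h0
      simpa [Matrix.mulVec_mulVec, ← Matrix.map_mul, hPR] using this
    · rw [Matrix.mulVec_mulVec, ← Matrix.map_mul, hPR]
      simpa using he

/-- **Hasse–Minkowski**, for the form of any rational matrix. -/
theorem hasseMinkowski_matrix (M : Matrix n n ℚ) :
    MatrixIsotropic ℚ M ↔
      MatrixIsotropic ℝ M ∧ ∀ (p : ℕ) [Fact p.Prime], MatrixIsotropic ℚ_[p] M := by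
  obtain ⟨d, w, -, h⟩ := exists_matrixIsotropic_iff M
  rw [h, h]
  simp only [Rat.cast_id]
  refine (hasseMinkowski_diagonal w).trans ⟨fun ⟨a, b⟩ => ⟨a, fun p _ => (h _).2 (b p)⟩,
    fun ⟨a, b⟩ => ⟨a, fun p _ => (h _).1 (b p)⟩⟩

end FA.QuadForms

end
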