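import Mathlib.Algebra.BigOperators.Fin
import Mathlib.Algebra.BigOperators.Ring.Finset
import Mathlib.Data.Fintype.BigOperators
import Mathlib.Tactic

/-!
# Isotropy of diagonal forms

Elementary manipulations of `∑ aᵢ xᵢ²` and of the ternary normal form `a x² + b y² = z²`.
-/

set_option autoImplicit false

open Finset

namespace FA.QuadForms

/-- The diagonal form with coefficients `a` has a non-trivial zero. -/
def Isotropic {F : Type*} [CommRing F] {ι : Type*} [Fintype ι] (a : ι → F) : Prop :=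
  ∃ x : ι → F, x ≠ 0 ∧ ∑ i, a i * x i ^ 2 = 0

/-- `a x² + b y² = z²` has a non-trivial solution. -/
def Iso3 {F : Type*} [CommRing F] (a b : F) : Prop :=
  ∃ x y z : F, (x ≠ 0 ∨ y ≠ 0 ∨ z ≠ 0) ∧ a * x ^ 2 + b * y ^ 2 = z ^ 2

variable {F : Type*} [Field F] {ι κ : Type*} [Fintype ι] [Fintype κ]

theorem Isotropic.map {G : Type*} [Field G] (f : F →+* G) {a : ι → F} (h : Isotropic a) :
    Isotropic fun i => f (a i) := by
  obtain ⟨x, hx, he⟩ := h
  refine ⟨fun i => f (x i), fun h0 => hx (funext fun i => f.injective ?_), ?_⟩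
  · simpa using congrFun h0 i
  · simp [← map_pow, ← map_mul, ← map_sum, he]

theorem Isotropic.of_smul {a : ι → F} {c : F} (hc : c ≠ 0)
    (h : Isotropic fun i => c * a i) : Isotropic a := by
  obtain ⟨x, hx, he⟩ := h
  refine ⟨x, hx, ?_⟩
  simp only [mul_assoc, ← mul_sum] at he
  exact (mul_eq_zero.1 he).resolve_left hc

theorem Isotropic.smul {a : ι → F} (c : F) (h : Isotropic a) : Isotropic fun i => c * a i := by
  obtain ⟨x, hx, he⟩ := h
  exact ⟨x, hx, by simp only [mul_assoc, ← mul_sum, he, mul_zero]⟩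

theorem Isotropic.of_sq {a b : ι → F} (s : ι → F) (hs : ∀ i, s i ≠ 0)
    (hb : ∀ i, b i = a i * s i ^ 2) (h : Isotropic b) : Isotropic a := by
  obtain ⟨x, hx, he⟩ := h
  refine ⟨fun i => s i * x i, fun h0 => hx (funext fun i => ?_), ?_⟩
  · exact (mul_eq_zero.1 (congrFun h0 i)).resolve_left (hs i)
  · exact Eq.trans (sum_congr rfl fun i _ => by rw [hb i]; ring) he

theorem Isotropic.of_eq_zero [DecidableEq ι] {a : ι → F} {i : ι} (h : a i = 0) : Isotropic a :=
  ⟨Pi.single i 1, fun h0 => one_ne_zero (α := F) (by simpa using congrFun h0 i),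
    sum_eq_zero fun j _ => by
      rcases eq_or_ne j i with rfl | hj
      · simp [h]
      · simp [Pi.single_eq_of_ne hj]⟩

/-- A form with an isotropic subform is isotropic. -/
theorem Isotropic.of_injective [DecidableEq κ] {a : κ → F} (f : ι → κ) (hf : Function.Injective f)
    (h : Isotropic fun i => a (f i)) : Isotropic a := by
  obtain ⟨x, hx, he⟩ := h
  refine ⟨fun k => ∑ i, if f i = k then x i else 0, fun h0 => hx (funext fun i => ?_), ?_⟩
  · have := congrFun h0 (f i)
    rw [Pi.zero_apply, sum_eq_single i (fun j _ hj => if_neg fun e => hj (hf e))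
      (fun h => absurd (mem_univ i) h), if_pos rfl] at this
    exact this
  · refine Eq.trans ?_ he
    rw [← sum_subset (subset_univ (univ.image f)) fun k _ hk => ?_,
      sum_image fun i _ j _ e => hf e]
    · refine sum_congr rfl fun i _ => ?_
      simp only
      rw [sum_eq_single i (fun j _ hj => if_neg fun e => hj (hf e))
        (fun h => absurd (mem_univ i) h), if_pos rfl]
    · simp only
      rw [sum_eq_zero fun i _ => if_neg fun e => hk (mem_image.2 ⟨i, mem_univ i, e⟩)]
      ring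

theorem isotropic_three_iff {a b c : F} (hc : c ≠ 0) :
    Isotropic ![a, b, c] ↔ Iso3 (-a / c) (-b / c) := by
  constructor
  · rintro ⟨x, hx, he⟩
    simp only [Fin.sum_univ_three, Matrix.cons_val_zero, Matrix.cons_val_one, Matrix.cons_val] at he
    refine ⟨x 0, x 1, x 2, ?_, ?_⟩
    · by_contra h
      push Not at h
      exact hx (funext fun i => by fin_cases i <;> simp [h.1, h.2.1, h.2.2])
    · field_simp
      linear_combination -he
  · rintro ⟨x, y, z, hne, he⟩
    refine ⟨![x, y, z], fun h0 => ?_, ?_⟩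
    · have h1 := congrFun h0 0
      have h2 := congrFun h0 1
      have h3 := congrFun h0 2
      simp at h1 h2 h3
      simp [h1, h2, h3] at hne
    · simp only [Fin.sum_univ_three, Matrix.cons_val_zero, Matrix.cons_val_one, Matrix.cons_val]
      field_simp at he
      linear_combination -he

theorem Iso3.symm {a b : F} (h : Iso3 a b) : Iso3 b a := by
  obtain ⟨x, y, z, hne, he⟩ := h
  exact ⟨y, x, z, by tauto, by linear_combination he⟩

theorem Iso3.of_sq {a b s t : F} (hs : s ≠ 0) (ht : t ≠ 0) (h : Iso3 (a * s ^ 2) (b * t ^ 2)) :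
    Iso3 a b := by
  obtain ⟨x, y, z, hne, he⟩ := h
  refine ⟨s * x, t * y, z, ?_, by linear_combination he⟩
  rcases hne with h | h | h
  · exact Or.inl (mul_ne_zero hs h)
  · exact Or.inr (Or.inl (mul_ne_zero ht h))
  · exact Or.inr (Or.inr h)

theorem Iso3.mul_sq {a b s t : F} (hs : s ≠ 0) (ht : t ≠ 0) (h : Iso3 a b) :
    Iso3 (a * s ^ 2) (b * t ^ 2) := by
  refine Iso3.of_sq (inv_ne_zero hs) (inv_ne_zero ht) ?_
  rwa [mul_assoc, ← mul_pow, mul_inv_cancel₀ hs, one_pow, mul_one, mul_assoc, ← mul_pow,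
    mul_inv_cancel₀ ht, one_pow, mul_one]

/-- `(a, b)` and `(a, -a b)` are equivalent. -/
theorem Iso3.neg_mul {a b : F} (ha : a ≠ 0) (h : Iso3 a b) : Iso3 a (-(a * b)) := by
  obtain ⟨x, y, z, hne, he⟩ := h
  refine ⟨z, y, a * x, ?_, by linear_combination -a * he⟩
  rcases hne with h | h | h
  · exact Or.inr (Or.inr (mul_ne_zero ha h))
  · exact Or.inr (Or.inl h)
  · exact Or.inl h

/-- If `b b' = t² - a` is a norm, `(a, b)` and `(a, b')` are equivalent. -/
theorem Iso3.of_norm {a b b' t : F} (hb : b ≠ 0) (hbb : b * b' = t ^ 2 - a) (h : Iso3 a b) :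
    Iso3 a b' := by
  obtain ⟨x, y, z, hne, he⟩ := h
  rcases eq_or_ne y 0 with rfl | hy
  · exact ⟨x, 0, z, hne, by linear_combination he⟩
  · refine ⟨z + x * t, b * y, z * t + a * x, Or.inr (Or.inl (mul_ne_zero hb hy)), ?_⟩
    linear_combination (t ^ 2 - a) * he + b * y ^ 2 * hbb

end FA.QuadForms
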