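import Fermat.Agent.QuadForms.Main

/-!
# Consequences of the Hasse principle

Meyer's theorem, the representation of a number and sums of three rational squares.
-/

set_option autoImplicit false
set_option linter.style.haveILetI false

noncomputable section

open Finset

namespace FA.QuadForms

/-- **Meyer's theorem**: from five variables on only the real place matters. -/
theorem isotropic_of_five {ι : Type*} [Fintype ι] (h : 5 ≤ Fintype.card ι) (a : ι → ℚ) :
    Isotropic a ↔ Isotropic fun i => (a i : ℝ) :=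
  (hasseMinkowski_diagonal a).trans ⟨And.left, fun hR => ⟨hR, fun _ _ => isotropic_five h _⟩⟩

theorem isotropic_option_iff {F : Type*} [Field F] [CharZero F] {ι : Type*} [Fintype ι]
    {a : ι → F} (ha : ∀ i, a i ≠ 0) {q : F} :
    Isotropic (fun o : Option ι => o.elim (-q) a) ↔ ∃ x : ι → F, ∑ i, a i * x i ^ 2 = q := by
  classical
  constructor
  · rintro ⟨x, hx, he⟩
    rw [Fintype.sum_option] at he
    simp only [Option.elim] at he
    rcases eq_or_ne (x none) 0 with h0 | h0
    · -- an isotropic form takes the value `q`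
      obtain ⟨i, hi⟩ : ∃ i, x (some i) ≠ 0 := by
        by_contra hne
        push Not at hne
        exact hx (funext fun o => by cases o <;> simp [h0, hne])
      set y : ι → F := fun i => x (some i)
      have hy : ∑ j, a j * y j ^ 2 = 0 := by simpa [h0] using he
      set k := q / (4 * a i * y i ^ 2)
      -- `(1 - k) y + 2 k y i eᵢ`
      refine ⟨fun j => if j = i then y i * (1 + k) else y j * (1 - k), ?_⟩
      rw [← add_sum_erase _ _ (mem_univ i)] at hy ⊢
      simp only [if_true]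
      rw [sum_congr rfl (g := fun j => (1 - k) ^ 2 * (a j * y j ^ 2)) fun j hj => by
        rw [if_neg (ne_of_mem_erase hj)]; ring, ← mul_sum]
      have hk : 4 * a i * y i ^ 2 * k = q := mul_div_cancel₀ q
        (mul_ne_zero (mul_ne_zero (by norm_num) (ha i)) (pow_ne_zero 2 hi))
      linear_combination (1 - k) ^ 2 * hy + hk
    · refine ⟨fun i => x (some i) / x none, ?_⟩
      rw [sum_congr rfl (g := fun i => a i * x (some i) ^ 2 * ((x none) ^ 2)⁻¹) fun i _ => by
        rw [div_pow, mul_div_assoc', div_eq_mul_inv], ← sum_mul]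
      field_simp
      linear_combination he
  · rintro ⟨x, hx⟩
    refine ⟨fun o => o.elim 1 x, fun h => one_ne_zero (α := F) (congrFun h none), ?_⟩
    rw [Fintype.sum_option]
    simp [hx]

/-- **Representation**: a rational is represented by a non-degenerate diagonal form over
`ℚ` iff it is so over every completion. -/
theorem represents_iff {ι : Type*} [Fintype ι] {a : ι → ℚ} (ha : ∀ i, a i ≠ 0) {q : ℚ} :
    (∃ x : ι → ℚ, ∑ i, a i * x i ^ 2 = q) ↔
      (∃ x : ι → ℝ, ∑ i, (a i : ℝ) * x i ^ 2 = q) ∧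
        ∀ (p : ℕ) [Fact p.Prime], ∃ x : ι → ℚ_[p], ∑ i, (a i : ℚ_[p]) * x i ^ 2 = q := by
  have key : ∀ {K : Type} [Field K] [CharZero K],
      Isotropic (fun o : Option ι => ((o.elim (-q) a : ℚ) : K)) ↔
        ∃ x : ι → K, ∑ i, (a i : K) * x i ^ 2 = q := by
    intro K _ _
    rw [show (fun o : Option ι => ((o.elim (-q) a : ℚ) : K)) =
      fun o : Option ι => o.elim (-(q : K)) (fun i => (a i : K)) by
        funext o; cases o <;> simp]
    exact isotropic_option_iff (fun i => by exact_mod_cast ha i)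
  rw [← isotropic_option_iff ha, hasseMinkowski_diagonal, key]
  exact ⟨fun h => ⟨h.1, fun p _ => key.1 (h.2 p)⟩, fun h => ⟨h.1, fun p _ => key.2 (h.2 p)⟩⟩

/-- `x² + y² + z² + w²` has only the trivial zero over `ℚ_2`. -/
theorem not_isotropic_four_squares :
    ¬Isotropic (fun _ : Fin 4 => (1 : ℚ_[2])) := by
  classical
  rintro ⟨x, hx, he⟩
  obtain ⟨i₀, -, hmax⟩ := Finset.exists_max_image (univ : Finset (Fin 4)) (fun i => ‖x i‖)
    univ_nonempty
  have hm : x i₀ ≠ 0 := fun h0 => hx (funext fun i => by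
    simpa [h0] using hmax i (mem_univ i))
  have hle : ∀ i, ‖x i / x i₀‖ ≤ 1 := fun i => by
    rw [norm_div, div_le_one (norm_pos_iff.2 hm)]; exact hmax i (mem_univ i)
  set y : Fin 4 → ℤ_[2] := fun i => ⟨x i / x i₀, hle i⟩ with hy
  have h1 : y i₀ = 1 := PadicInt.ext (by simp [hy, div_self hm])
  have hsum : ∑ i, y i ^ 2 = 0 := by
    refine PadicInt.coe_eq_zero.1 ?_
    have e : ∑ i, (x i / x i₀) ^ 2 = 0 := by
      simp only [div_pow, ← sum_div]
      simp at he
      rw [he, zero_div]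
    change PadicInt.Coe.ringHom (∑ i, y i ^ 2) = 0
    rw [map_sum, ← e]
    exact sum_congr rfl fun i _ => map_pow PadicInt.Coe.ringHom (y i) 2
  have h8 := congrArg (PadicInt.toZModPow 3) hsum
  rw [map_sum, map_zero, Fin.sum_univ_four] at h8
  simp only [map_pow] at h8
  have hone : PadicInt.toZModPow 3 (y i₀) = 1 := by rw [h1, map_one]
  have hsq : ∀ a : ZMod (2 ^ 3), a ^ 2 = 0 ∨ a ^ 2 = 1 ∨ a ^ 2 = 4 := by decide
  have key : ∀ b ∈ ({0, 1, 4} : Finset (ZMod (2 ^ 3))), ∀ c ∈ ({0, 1, 4} : Finset (ZMod (2 ^ 3))),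
      ∀ d ∈ ({0, 1, 4} : Finset (ZMod (2 ^ 3))), 1 + b + c + d ≠ 0 := by decide
  have hmem : ∀ i, PadicInt.toZModPow 3 (y i) ^ 2 ∈ ({0, 1, 4} : Finset (ZMod (2 ^ 3))) :=
    fun i => by simpa using hsq _
  rcases (show i₀ = 0 ∨ i₀ = 1 ∨ i₀ = 2 ∨ i₀ = 3 by fin_cases i₀ <;> simp) with e | e | e | e <;>
    subst e <;> simp only [hone, one_pow] at h8
  · exact key _ (hmem 1) _ (hmem 2) _ (hmem 3) h8
  · exact key _ (hmem 0) _ (hmem 2) _ (hmem 3) (by linear_combination h8)
  · exact key _ (hmem 0) _ (hmem 1) _ (hmem 3) (by linear_combination h8)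
  · exact key _ (hmem 0) _ (hmem 1) _ (hmem 2) (by linear_combination h8)

/-- The three squares criterion over `ℚ_2`. -/
theorem three_squares_padic_two {q : ℚ_[2]} (hq : q ≠ 0) :
    (∃ x y z : ℚ_[2], x ^ 2 + y ^ 2 + z ^ 2 = q) ↔ ¬IsSquare (-q) := by
  constructor
  · rintro ⟨x, y, z, he⟩ ⟨s, hs⟩
    refine not_isotropic_four_squares ⟨![x, y, z, s], fun h => hq ?_, ?_⟩
    · have e0 := congrFun h 0
      have e1 := congrFun h 1
      have e2 := congrFun h 2
      simp at e0 e1 e2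
      rw [← he, e0, e1, e2]; ring
    · simp only [Fin.sum_univ_four, Matrix.cons_val_zero, Matrix.cons_val_one, Matrix.cons_val]
      linear_combination he - hs
  · intro hns
    obtain ⟨α, r, hα, hr, hcl⟩ := exists_squareClass hq
    rw [Nat.cast_ofNat] at hr
    set r₀ : ℤ := r % 8
    obtain ⟨s, hs, hqs⟩ := hcl r₀ (by norm_num; omega)
    obtain ⟨A, B, C, habc⟩ : ∃ A B C : ℤ, r₀ * 2 ^ α = A ^ 2 + B ^ 2 + C ^ 2 := by
      rcases (show r₀ = 1 ∨ r₀ = 3 ∨ r₀ = 5 ∨ r₀ = 7 by omega) with e | e | e | e <;>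
        interval_cases α <;> rw [e]
      · exact ⟨1, 0, 0, by norm_num⟩
      · exact ⟨1, 1, 0, by norm_num⟩
      · exact ⟨1, 1, 1, by norm_num⟩
      · exact ⟨2, 1, 1, by norm_num⟩
      · exact ⟨2, 1, 0, by norm_num⟩
      · exact ⟨3, 1, 0, by norm_num⟩
      · exfalso
        obtain ⟨u, hu⟩ := isSquare_two_of_modEq (n := -7) (by norm_num)
        refine hns ⟨u * s, ?_⟩
        rw [hqs, e]
        push_cast at hu ⊢
        linear_combination s ^ 2 * hu
      · exact ⟨3, 2, 1, by norm_num⟩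
    refine ⟨A * s, B * s, C * s, ?_⟩
    rw [hqs]
    have e := congrArg (Int.cast : ℤ → ℚ_[2]) habc
    push_cast at e ⊢
    linear_combination -s ^ 2 * e

/-- **Sums of three rational squares.** -/
theorem three_squares_rat {q : ℚ} (hq : q ≠ 0) :
    (∃ x y z : ℚ, x ^ 2 + y ^ 2 + z ^ 2 = q) ↔ 0 < q ∧ ¬IsSquare (-(q : ℚ_[2])) := by
  have hconv : ∀ {K : Type} [Field K] (q : K), (∃ x y z : K, x ^ 2 + y ^ 2 + z ^ 2 = q) ↔
      ∃ v : Fin 3 → K, ∑ i, (fun _ => (1 : K)) i * v i ^ 2 = q := by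
    intro K _ q
    constructor
    · rintro ⟨x, y, z, h⟩; exact ⟨![x, y, z], by simpa [Fin.sum_univ_three] using h⟩
    · rintro ⟨v, h⟩; exact ⟨v 0, v 1, v 2, by simpa [Fin.sum_univ_three] using h⟩
  have hq2 : (q : ℚ_[2]) ≠ 0 := Rat.cast_ne_zero.2 hq
  rw [← three_squares_padic_two hq2]
  constructor
  · rintro ⟨x, y, z, h⟩
    refine ⟨lt_of_le_of_ne (h ▸ by positivity) hq.symm, x, y, z, ?_⟩
    exact_mod_cast congrArg (Rat.cast : ℚ → ℚ_[2]) h
  · rintro ⟨hpos, h2⟩
    rw [hconv, represents_iff (fun _ => one_ne_zero)]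
    refine ⟨⟨![√(q : ℝ), 0, 0], ?_⟩, fun p hp => ?_⟩
    · simp [Fin.sum_univ_three, Real.sq_sqrt (show (0 : ℝ) ≤ q by exact_mod_cast hpos.le)]
    · by_cases hp2 : p = 2
      · subst hp2
        obtain ⟨x, y, z, h⟩ := h2
        exact ⟨![x, y, z], by simpa [Fin.sum_univ_three] using h⟩
      · have h1 : ¬(p : ℤ) ∣ 1 := fun h =>
          hp.out.ne_one (Nat.dvd_one.1 (by exact_mod_cast h))
        have h3 := isotropic_three_units hp2 h1 h1 h1
        refine (isotropic_option_iff (a := fun _ : Fin 3 => ((1 : ℚ) : ℚ_[p]))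
          (fun _ => by simp) (q := (q : ℚ_[p]))).1
          (Isotropic.of_injective some (Option.some_injective _) ?_)
        have e : (fun i : Fin 3 => (some i).elim (-(q : ℚ_[p]))
            fun _ : Fin 3 => ((1 : ℚ) : ℚ_[p])) =
            ![((1 : ℤ) : ℚ_[p]), ((1 : ℤ) : ℚ_[p]), ((1 : ℤ) : ℚ_[p])] := by
          funext i; fin_cases i <;> simp
        exact e ▸ h3

end FA.QuadForms

end
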