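import Fermat.Agent.QuadForms.Squares
import Mathlib.Data.Nat.ChineseRemainder
import Mathlib.NumberTheory.LSeries.PrimesInAP

/-!
# Integers and primes with prescribed `p`-adic behaviour

The Chinese remainder theorem, Dirichlet's theorem and the density of `ℤ` in `ℤ_p`.
-/

set_option autoImplicit false
set_option linter.style.haveILetI false

noncomputable section

open Finset Filter Topology

namespace FA.QuadForms

/-- The Chinese remainder theorem for prime powers. -/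
theorem exists_int_congr (S : Finset ℕ) (hS : ∀ p ∈ S, p.Prime) (k : ℕ → ℕ) (A : ℕ → ℤ) :
    ∃ n : ℤ, ∀ p ∈ S, (p : ℤ) ^ k p ∣ n - A p := by
  classical
  let c := Nat.chineseRemainderOfFinset (fun p => (A p % (p : ℤ) ^ k p).toNat) (fun p => p ^ k p) S
    (fun p hp => pow_ne_zero _ (hS p hp).ne_zero)
    (fun p hp q hq hpq =>
      Nat.Coprime.pow _ _ ((Nat.coprime_primes (hS p hp) (hS q hq)).2 hpq))
  refine ⟨(c : ℕ), fun p hp => ?_⟩
  have := Int.natCast_modEq_iff.2 (c.2 p hp)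
  rw [Int.toNat_of_nonneg (Int.emod_nonneg _ (pow_ne_zero _
    (Int.natCast_ne_zero.2 (hS p hp).ne_zero))), Nat.cast_pow] at this
  exact (this.trans (Int.mod_modEq _ _)).symm.dvd

/-- A prime beyond any bound with prescribed residues modulo the cubes of finitely many primes. -/
theorem exists_prime_congr (S : Finset ℕ) (hS : ∀ p ∈ S, p.Prime) (r : ℕ → ℤ)
    (hr : ∀ p ∈ S, ¬(p : ℤ) ∣ r p) (B : ℕ) :
    ∃ q : ℕ, B < q ∧ q.Prime ∧ ∀ p ∈ S, (p : ℤ) ^ 3 ∣ (q : ℤ) - r p := by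
  obtain ⟨n, hn⟩ := exists_int_congr S hS (fun _ => 3) r
  set M : ℕ := ∏ p ∈ S, p ^ 3 with hM
  haveI : NeZero M := ⟨prod_ne_zero_iff.2 fun p hp => pow_ne_zero _ (hS p hp).ne_zero⟩
  have hcop : IsCoprime n (M : ℤ) := by
    rw [hM, Nat.cast_prod]
    refine IsCoprime.prod_right fun p hp => ?_
    rw [Nat.cast_pow]
    have hP := (Nat.prime_iff_prime_int.1 (hS p hp)).irreducible
    refine IsCoprime.pow_right ((hP.coprime_iff_not_dvd).2
      fun h => hr p hp ?_).symm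
    exact (dvd_sub h ((dvd_pow_self (p : ℤ) three_ne_zero).trans (hn p hp))).trans
      (dvd_of_eq (by ring))
  have hu : IsUnit (n : ZMod M) := by
    have := hcop.map (Int.castRingHom (ZMod M))
    simpa [isCoprime_zero_right] using this
  obtain ⟨q, hqB, hq, hqn⟩ := Nat.forall_exists_prime_gt_and_eq_mod hu B
  refine ⟨q, hqB, hq, fun p hp => ?_⟩
  have h1 : (M : ℤ) ∣ (q : ℤ) - n := by
    rw [← ZMod.intCast_zmod_eq_zero_iff_dvd]
    push_cast
    rw [hqn, sub_self]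
  have h2 : (p : ℤ) ^ 3 ∣ (M : ℤ) := by
    rw [hM, Nat.cast_prod, ← Nat.cast_pow]
    exact dvd_prod_of_mem (fun q : ℕ => ((q ^ 3 : ℕ) : ℤ)) hp
  exact (dvd_add (h2.trans h1) (hn p hp)).trans (dvd_of_eq (by ring))

variable {p : ℕ} [hp : Fact p.Prime]

/-- Integers congruent modulo a high power of `p` give nearly the same values. -/
theorem exists_congr_nhds (x y : ℤ_[p]) {s : Set (ℚ_[p] × ℚ_[p])}
    (hs : s ∈ 𝓝 ((x : ℚ_[p]), (y : ℚ_[p]))) :
    ∃ (k : ℕ) (A B : ℤ), ∀ X Y : ℤ, (p : ℤ) ^ k ∣ X - A → (p : ℤ) ^ k ∣ Y - B →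
      ((X : ℚ_[p]), (Y : ℚ_[p])) ∈ s := by
  obtain ⟨δ, hδ, hball⟩ := Metric.mem_nhds_iff.1 hs
  obtain ⟨k, hk⟩ : ∃ k : ℕ, (p : ℝ) ^ (-k : ℤ) < δ := by
    obtain ⟨k, hk⟩ := exists_pow_lt_of_lt_one hδ
      (show (p : ℝ)⁻¹ < 1 from inv_lt_one_of_one_lt₀ one_lt_prime_cast)
    exact ⟨k, by rwa [zpow_neg, zpow_natCast, ← inv_pow]⟩
  refine ⟨k, x.appr k, y.appr k, fun X Y hX hY => hball ?_⟩
  have key : ∀ (w : ℤ_[p]) (W : ℤ), (p : ℤ) ^ k ∣ W - (w.appr k : ℤ) →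
      ‖(W : ℚ_[p]) - w‖ < δ := by
    intro w W hW
    have h1 := (PadicInt.norm_le_pow_iff_mem_span_pow _ k).2 (PadicInt.appr_spec k w)
    rw [PadicInt.norm_def, PadicInt.coe_sub, PadicInt.coe_natCast, norm_sub_rev] at h1
    have h2 := norm_le_of_dvd hW
    push_cast at h2
    refine lt_of_le_of_lt ?_ hk
    calc ‖(W : ℚ_[p]) - w‖ = ‖((W : ℚ_[p]) - (w.appr k : ℕ)) + (((w.appr k : ℕ) : ℚ_[p]) - w)‖ := by
          rw [sub_add_sub_cancel]
      _ ≤ _ := (Padic.nonarchimedean _ _).trans (max_le h2 h1)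
  rw [Metric.mem_ball, Prod.dist_eq, dist_eq_norm, dist_eq_norm]
  exact max_lt (key x X hX) (key y Y hY)

end FA.QuadForms

end
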