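import Fermat.Agent.QuadForms.Quaternary
import Mathlib.Topology.Algebra.Ring.Basic

/-!
# The Hasse principle in every number of variables

From five variables on, two coefficients are traded for one by weak approximation at the finitely
many primes where the other variables alone are anisotropic.
-/

set_option autoImplicit false
set_option linter.style.haveILetI false

noncomputable section

open Finset Filter Topology

namespace FA.QuadForms

/-- The local hypotheses for a diagonal form with integral coefficients. -/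
def LocalIsotropic {ι : Type*} [Fintype ι] (a : ι → ℤ) : Prop :=
  Isotropic (fun i => (a i : ℝ)) ∧
    ∀ (p : ℕ) [Fact p.Prime], Isotropic (fun i => (a i : ℚ_[p]))

theorem LocalIsotropic.comp_equiv {ι κ : Type*} [Fintype ι] [Fintype κ] [DecidableEq κ]
    {a : κ → ℤ} (e : κ ≃ ι) (h : LocalIsotropic a) : LocalIsotropic fun i => a (e.symm i) := by
  classical
  exact ⟨Isotropic.of_injective (a := fun i => ((a (e.symm i) : ℤ) : ℝ)) e e.injective
      (by simpa using h.1),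
    fun p _ => Isotropic.of_injective (a := fun i => ((a (e.symm i) : ℤ) : ℚ_[p])) e e.injective
      (by simpa using h.2 p)⟩

/-- For odd `p` a form with three coefficients prime to `p` is isotropic. -/
theorem isotropic_of_units {n : ℕ} (hn : 3 ≤ n) (g : Fin n → ℤ) {p : ℕ} [Fact p.Prime]
    (h2 : p ≠ 2) (hg : ∀ i, ¬(p : ℤ) ∣ g i) : Isotropic (fun i => (g i : ℚ_[p])) := by
  refine Isotropic.of_injective ![(⟨0, by omega⟩ : Fin n), ⟨1, by omega⟩, ⟨2, by omega⟩] ?_ ?_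
  · intro i j h
    fin_cases i <;> fin_cases j <;> simp_all
  · have e : (fun i => (g (![(⟨0, by omega⟩ : Fin n), ⟨1, by omega⟩, ⟨2, by omega⟩] i) : ℚ_[p])) =
        ![(g ⟨0, by omega⟩ : ℚ_[p]), (g ⟨1, by omega⟩ : ℚ_[p]), (g ⟨2, by omega⟩ : ℚ_[p])] := by
      funext i; fin_cases i <;> rfl
    rw [e]
    exact isotropic_three_units h2 (hg _) (hg _) (hg _)

/-- The real choice: one of the two head coefficients can dominate. -/
theorem exists_dominant {a b : ℤ} (ha : a ≠ 0) {n : ℕ} (hn : 0 < n) (g : Fin n → ℤ)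
    (hg : ∀ i, g i ≠ 0)
    (hR : Isotropic (fun i =>
      ((Fin.cons a (Fin.cons b g : Fin (n + 1) → ℤ) : Fin (n + 2) → ℤ) i : ℝ)))
    (hb : b ≠ 0) :
    ∃ first : Bool, ∀ T : ℤ, 0 < T * (if first then a else b) →
      Isotropic (fun i => ((Fin.cons T g : Fin (n + 1) → ℤ) i : ℝ)) := by
  have hall : ∀ i, ((Fin.cons a (Fin.cons b g : Fin (n + 1) → ℤ) : Fin (n + 2) → ℤ) i : ℝ) ≠ 0 := by
    intro i
    refine Int.cast_ne_zero.2 ?_
    refine Fin.cases ?_ (fun j => ?_) i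
    · simpa using ha
    · refine Fin.cases ?_ (fun k => ?_) j
      · simpa using hb
      · simpa using hg k
  obtain ⟨⟨i, hi⟩, ⟨j, hj⟩⟩ := (isotropic_real_iff hall).1 hR
  simp only [Int.cast_pos, Int.cast_lt_zero] at hi hj
  have crit : ∀ T : ℤ, T ≠ 0 → ((0 < T ∨ ∃ k, 0 < g k) ∧ (T < 0 ∨ ∃ k, g k < 0)) →
      Isotropic (fun i => ((Fin.cons T g : Fin (n + 1) → ℤ) i : ℝ)) := by
    intro T hT ⟨hpos, hneg⟩
    refine (isotropic_real_iff fun i => Int.cast_ne_zero.2 ?_).2 ⟨?_, ?_⟩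
    · refine Fin.cases ?_ (fun k => ?_) i
      · simpa using hT
      · simpa using hg k
    · rcases hpos with h | ⟨k, hk⟩
      · exact ⟨0, by simpa using h⟩
      · exact ⟨k.succ, by simpa using hk⟩
    · rcases hneg with h | ⟨k, hk⟩
      · exact ⟨0, by simpa using h⟩
      · exact ⟨k.succ, by simpa using hk⟩
  by_cases hp : ∃ k, 0 < g k
  · by_cases hn : ∃ k, g k < 0
    · exact ⟨true, fun T hT => crit T (left_ne_zero_of_mul hT.ne') ⟨Or.inr hp, Or.inr hn⟩⟩
    · -- `g` is positive: a negative head coefficient is needed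
      refine ⟨decide (a < 0), fun T hT => crit T (left_ne_zero_of_mul hT.ne')
        ⟨Or.inr hp, Or.inl ?_⟩⟩
      have hab : a < 0 ∨ b < 0 := by
        revert hj
        refine Fin.cases (fun h => Or.inl (by simpa using h)) (fun k => ?_) j
        refine Fin.cases (fun h => Or.inr (by simpa using h)) (fun l h => ?_) k
        exact absurd ⟨l, by simpa using h⟩ hn
      by_cases ha0 : a < 0
      · simp [ha0] at hT; nlinarith
      · simp [ha0] at hT; nlinarith [hab.resolve_left ha0]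
  · refine ⟨decide (0 < a), fun T hT => crit T (left_ne_zero_of_mul hT.ne') ?_⟩
    have hab : 0 < a ∨ 0 < b := by
      revert hi
      refine Fin.cases (fun h => Or.inl (by simpa using h)) (fun k => ?_) i
      refine Fin.cases (fun h => Or.inr (by simpa using h)) (fun l h => ?_) k
      exact absurd ⟨l, by simpa using h⟩ hp
    have hT' : 0 < T := by
      by_cases ha0 : 0 < a
      · simp [ha0] at hT; nlinarith
      · simp [ha0] at hT; nlinarith [hab.resolve_left ha0]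
    refine ⟨Or.inl hT', ?_⟩
    exact Or.inr ⟨⟨0, hn⟩, lt_of_le_of_ne (not_lt.1 fun h => hp ⟨_, h⟩) (hg _)⟩

/-- A head value at a prime where the tail is anisotropic. -/
theorem exists_head_value {F : Type*} [Field F] [CharZero F] {n : ℕ} (hn : 0 < n) {a b : F}
    {g : Fin n → F} (ha : a ≠ 0) (hb : b ≠ 0) (hg : ∀ i, g i ≠ 0)
    (h : Isotropic (Fin.cons a (Fin.cons b g : Fin (n + 1) → F) : Fin (n + 2) → F))
    (hgan : ¬Isotropic g) :
    ∃ X Y : F, a * X ^ 2 + b * Y ^ 2 ≠ 0 ∧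
      Isotropic (Fin.cons (a * X ^ 2 + b * Y ^ 2) g : Fin (n + 1) → F) := by
  obtain ⟨x, hx, he⟩ := h
  simp only [Fin.sum_univ_succ, Fin.cons_zero, Fin.cons_succ] at he
  set y : Fin n → F := fun i => x i.succ.succ
  have he' : a * x 0 ^ 2 + b * x (Fin.succ 0) ^ 2 + ∑ i, g i * y i ^ 2 = 0 := by
    linear_combination he
  rcases eq_or_ne (a * x 0 ^ 2 + b * x (Fin.succ 0) ^ 2) 0 with h0 | h0
  · have hy : y = 0 := by
      by_contra hy
      exact hgan ⟨y, hy, by linear_combination he' - h0⟩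
    have hne : x 0 ≠ 0 ∨ x (Fin.succ 0) ≠ 0 := by
      by_contra hne
      push Not at hne
      refine hx (funext fun i => ?_)
      refine Fin.cases hne.1 (fun j => ?_) i
      exact Fin.cases hne.2 (fun k => congrFun hy k) j
    obtain ⟨X, Y, hXY⟩ := exists_eq_of_binary_zero ha hb hne h0 (-g ⟨0, hn⟩)
    refine ⟨X, Y, by rw [hXY]; exact neg_ne_zero.2 (hg _), ?_⟩
    rw [hXY]
    refine ⟨Fin.cons 1 (Pi.single ⟨0, hn⟩ 1), fun e => one_ne_zero (α := F) (congrFun e 0), ?_⟩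
    simp only [Fin.sum_univ_succ, Fin.cons_zero, Fin.cons_succ]
    rw [sum_eq_single ⟨0, hn⟩]
    · simp
    · intro j _ hj; simp [Pi.single_eq_of_ne hj]
    · simp
  · refine ⟨x 0, x (Fin.succ 0), h0, Fin.cons 1 y, fun e => one_ne_zero (α := F) (congrFun e 0), ?_⟩
    simp only [Fin.sum_univ_succ, Fin.cons_zero, Fin.cons_succ]
    linear_combination he'

/-- **The reduction step.** -/
theorem exists_reduction {n : ℕ} (hn : 3 ≤ n) {a b : ℤ} (ha : a ≠ 0) (hb : b ≠ 0) (g : Fin n → ℤ)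
    (hg : ∀ i, g i ≠ 0)
    (h : LocalIsotropic (Fin.cons a (Fin.cons b g : Fin (n + 1) → ℤ) : Fin (n + 2) → ℤ)) :
    ∃ A B : ℤ, a * A ^ 2 + b * B ^ 2 ≠ 0 ∧
      LocalIsotropic (Fin.cons (a * A ^ 2 + b * B ^ 2) g : Fin (n + 1) → ℤ) := by
  classical
  set S : Finset ℕ := ((insert 2 (∏ i, g i).natAbs.primeFactors).filter fun p =>
    ∀ [Fact p.Prime], ¬Isotropic fun i => (g i : ℚ_[p])) with hS
  have hSp : ∀ p ∈ S, p.Prime := fun p hp => by
    rcases mem_insert.1 (mem_filter.1 hp).1 with rfl | hp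
    · exact Nat.prime_two
    · exact Nat.prime_of_mem_primeFactors hp
  have hloc : ∀ p ∈ S, ∃ (k : ℕ) (A B : ℤ), ∀ [Fact p.Prime], ∀ X Y : ℤ,
      (p : ℤ) ^ k ∣ X - A → (p : ℤ) ^ k ∣ Y - B →
      Isotropic (fun i => ((Fin.cons (a * X ^ 2 + b * Y ^ 2) g : Fin (n + 1) → ℤ) i : ℚ_[p])) := by
    intro p hp
    haveI := Fact.mk (hSp p hp)
    have hmap : ∀ (T : ℤ), (fun i => ((Fin.cons T g : Fin (n + 1) → ℤ) i : ℚ_[p])) =
        (Fin.cons (T : ℚ_[p]) (fun i => (g i : ℚ_[p])) : Fin (n + 1) → ℚ_[p]) := fun T => by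
      funext i; refine Fin.cases ?_ (fun j => ?_) i <;> simp
    have hiso : Isotropic (Fin.cons (a : ℚ_[p]) (Fin.cons (b : ℚ_[p])
        (fun i => (g i : ℚ_[p])) : Fin (n + 1) → ℚ_[p]) : Fin (n + 2) → ℚ_[p]) := by
      have e := h.2 p
      convert e using 1
      funext i
      refine Fin.cases ?_ (fun j => ?_) i
      · simp
      · refine Fin.cases ?_ (fun k => ?_) j <;> simp
    obtain ⟨X₀, Y₀, hne, hisoT⟩ := exists_head_value (by omega) (Int.cast_ne_zero.2 ha)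
      (Int.cast_ne_zero.2 hb) (fun i => Int.cast_ne_zero.2 (hg i)) hiso
      ((mem_filter.1 hp).2)
    -- scale into `ℤ_p`
    obtain ⟨m, hm⟩ : ∃ m : ℕ, ‖(p : ℚ_[p]) ^ m * X₀‖ ≤ 1 ∧ ‖(p : ℚ_[p]) ^ m * Y₀‖ ≤ 1 := by
      obtain ⟨m, hm⟩ := pow_unbounded_of_one_lt (max ‖X₀‖ ‖Y₀‖) (one_lt_prime_cast (p := p))
      refine ⟨m, ?_, ?_⟩ <;> rw [norm_mul, norm_pow, Padic.norm_p, inv_pow,
        inv_mul_le_one₀ (pow_pos (lt_trans one_pos one_lt_prime_cast) m)]
      · exact le_trans (le_max_left _ _) hm.le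
      · exact le_trans (le_max_right _ _) hm.le
    set π : ℚ_[p] := (p : ℚ_[p]) ^ m
    have hπ : π ≠ 0 := pow_ne_zero _ (Nat.cast_ne_zero.2 (hSp p hp).ne_zero)
    set t := (a : ℚ_[p]) * (π * X₀) ^ 2 + (b : ℚ_[p]) * (π * Y₀) ^ 2 with ht
    have ht0 : t ≠ 0 := by
      rw [ht, show (a : ℚ_[p]) * (π * X₀) ^ 2 + (b : ℚ_[p]) * (π * Y₀) ^ 2 =
        π ^ 2 * ((a : ℚ_[p]) * X₀ ^ 2 + (b : ℚ_[p]) * Y₀ ^ 2) by ring]
      exact mul_ne_zero (pow_ne_zero 2 hπ) hne
    obtain ⟨k, A, B, hAB⟩ := exists_congr_nhds (⟨π * X₀, hm.1⟩ : ℤ_[p]) ⟨π * Y₀, hm.2⟩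
      (s := (fun z : ℚ_[p] × ℚ_[p] => (a : ℚ_[p]) * z.1 ^ 2 + (b : ℚ_[p]) * z.2 ^ 2) ⁻¹'
        {t' | t' ≠ 0 ∧ IsSquare (t' / t)})
      ((by fun_prop : Continuous fun z : ℚ_[p] × ℚ_[p] =>
        (a : ℚ_[p]) * z.1 ^ 2 + (b : ℚ_[p]) * z.2 ^ 2).continuousAt.preimage_mem_nhds
        (exists_isSquare_nhds ht0))
    refine ⟨k, A, B, fun X Y hX hY => ?_⟩
    obtain ⟨hne', s, hs⟩ := hAB X Y hX hY
    simp only at hne' hs
    have hs0 : s ≠ 0 := fun e => by
      rw [e, mul_zero, div_eq_zero_iff] at hs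
      exact hs.elim hne' ht0
    rw [hmap]
    push_cast
    refine Isotropic.of_sq (Fin.cons (π * s)⁻¹ (fun _ => 1)) (fun i => ?_) (fun i => ?_) hisoT
    · refine Fin.cases ?_ (fun j => ?_) i <;> simp [hπ, hs0]
    · refine Fin.cases ?_ (fun j => ?_) i
      · simp only [Fin.cons_zero]
        rw [div_eq_iff ht0] at hs
        rw [hs, ht]
        field_simp
      · simp
  choose! k A B hAB using hloc
  obtain ⟨A₀, hA₀⟩ := exists_int_congr S hSp k A
  obtain ⟨B₀, hB₀⟩ := exists_int_congr S hSp k B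
  set M : ℕ := ∏ p ∈ S, p ^ k p with hM
  have hM1 : 1 ≤ M := Nat.one_le_iff_ne_zero.2
    (prod_ne_zero_iff.2 fun p hp => pow_ne_zero _ (hSp p hp).ne_zero)
  have hMdvd : ∀ p ∈ S, (p : ℤ) ^ k p ∣ (M : ℤ) := fun p hp => by
    rw [hM, Nat.cast_prod, ← Nat.cast_pow]
    exact dvd_prod_of_mem (fun q : ℕ => ((q ^ k q : ℕ) : ℤ)) hp
  obtain ⟨first, hfirst⟩ := exists_dominant ha (by omega) g hg h.1 hb
  -- make the chosen coordinate large
  have hlarge : ∀ (u v U V : ℤ), u ≠ 0 → ∃ N : ℤ, 0 < (u * (U + M * N) ^ 2 + v * V ^ 2) * u := by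
    intro u v U V hu
    refine ⟨|U| + |v * u| * V ^ 2 + 1, ?_⟩
    set N := |U| + |v * u| * V ^ 2 + 1 with hN
    have hM' : (1 : ℤ) ≤ M := by exact_mod_cast hM1
    have hN' : |v * u| * V ^ 2 + 1 ≤ U + M * N := by
      have h0 : (0 : ℤ) ≤ N := by rw [hN]; positivity
      linarith [le_mul_of_one_le_left h0 hM', neg_abs_le U]
    have h1 : 1 ≤ u * u := by
      have := mul_self_pos.2 hu
      omega
    have h2 : 0 ≤ |v * u| * V ^ 2 := by positivity
    nlinarith [neg_abs_le (v * u), mul_le_mul_of_nonneg_right h1 (sq_nonneg (U + M * N)),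
      mul_le_mul_of_nonneg_left hN' (le_trans (by linarith) hN'),
      mul_le_mul_of_nonneg_right (neg_abs_le (v * u)) (sq_nonneg V)]
  obtain ⟨X, Y, hXY, hXA, hYB⟩ : ∃ X Y : ℤ, 0 < (a * X ^ 2 + b * Y ^ 2) * (if first then a else b) ∧
      (∀ p ∈ S, (p : ℤ) ^ k p ∣ X - A p) ∧ ∀ p ∈ S, (p : ℤ) ^ k p ∣ Y - B p := by
    cases first
    · obtain ⟨N, hN⟩ := hlarge b a B₀ A₀ hb
      refine ⟨A₀, B₀ + M * N, by simpa [add_comm] using hN, hA₀, fun p hp => ?_⟩
      exact (dvd_add (hB₀ p hp) (dvd_mul_of_dvd_left (hMdvd p hp) N)).trans (dvd_of_eq (by ring))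
    · obtain ⟨N, hN⟩ := hlarge a b A₀ B₀ ha
      refine ⟨A₀ + M * N, B₀, by simpa using hN, fun p hp => ?_, hB₀⟩
      exact (dvd_add (hA₀ p hp) (dvd_mul_of_dvd_left (hMdvd p hp) N)).trans (dvd_of_eq (by ring))
  refine ⟨X, Y, left_ne_zero_of_mul hXY.ne', hfirst _ hXY, fun p hp => ?_⟩
  by_cases hpS : p ∈ S
  · exact hAB p hpS X Y (hXA p hpS) (hYB p hpS)
  · have hgiso : Isotropic fun i => (g i : ℚ_[p]) := by
      by_cases hmem : p ∈ insert 2 (∏ i, g i).natAbs.primeFactors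
      · by_contra hnot
        exact hpS (mem_filter.2 ⟨hmem, hnot⟩)
      · simp only [mem_insert, Nat.mem_primeFactors, not_or, not_and, ne_eq] at hmem
        refine isotropic_of_units hn g hmem.1 fun i hi => hmem.2 hp.out
          (Int.natCast_dvd.1 (hi.trans (dvd_prod_of_mem g (mem_univ i)))) ?_
        exact Int.natAbs_ne_zero.2 (prod_ne_zero_iff.2 fun i _ => hg i)
    exact Isotropic.of_injective Fin.succ (Fin.succ_injective _) (by simpa using hgiso)

/-- **The Hasse principle for diagonal forms over `ℤ` in at least five variables**, given it in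
one variable fewer. -/
theorem isotropic_succ {n : ℕ} (hn : 3 ≤ n)
    (ih : ∀ g : Fin (n + 1) → ℤ, (∀ i, g i ≠ 0) → LocalIsotropic g →
      Isotropic fun i => (g i : ℚ))
    (c : Fin (n + 2) → ℤ) (hc : ∀ i, c i ≠ 0) (h : LocalIsotropic c) :
    Isotropic fun i => (c i : ℚ) := by
  set g : Fin n → ℤ := fun i => c i.succ.succ
  have e : c = (Fin.cons (c 0) (Fin.cons (c (Fin.succ 0)) g : Fin (n + 1) → ℤ) :
      Fin (n + 2) → ℤ) := by
    funext i
    refine Fin.cases ?_ (fun j => ?_) i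
    · simp
    · refine Fin.cases ?_ (fun k => ?_) j <;> simp [g]
  rw [e] at h
  obtain ⟨A, B, hT, hloc⟩ := exists_reduction hn (hc 0) (hc _) g (fun i => hc _) h
  obtain ⟨z, hz, hze⟩ := ih _ (fun i => by
    refine Fin.cases ?_ (fun j => ?_) i
    · simpa using hT
    · simpa using hc _) hloc
  simp only [Fin.sum_univ_succ, Fin.cons_zero, Fin.cons_succ, Int.cast_add, Int.cast_mul,
    Int.cast_pow] at hze
  set x : Fin (n + 2) → ℚ :=
    (Fin.cons ((A : ℚ) * z 0) (Fin.cons ((B : ℚ) * z 0) (fun i => z i.succ) : Fin (n + 1) → ℚ))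
    with hx
  refine ⟨x, fun h0 => ?_, ?_⟩
  · have h1 : ∀ i : Fin n, z i.succ = 0 := fun i => by
      simpa [hx] using congrFun h0 i.succ.succ
    refine hz (funext fun i => Fin.cases ?_ h1 i)
    have e0 := congrFun h0 0
    have e1 := congrFun h0 (Fin.succ 0)
    by_contra hz0
    simp [hx, show z 0 ≠ 0 from hz0] at e0 e1
    exact hT (by rw [e0, e1]; ring)
  · simp only [hx, Fin.sum_univ_succ, Fin.cons_zero, Fin.cons_succ]
    linear_combination hze

end FA.QuadForms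

end
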