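import Fermat.Agent.QuadForms.Induction

/-!
# The theorem of Hasse and Minkowski

Isotropy of a quadratic form over `ℚ` is isotropy over `ℝ` and over every `ℚ_p`.
-/

set_option autoImplicit false
set_option linter.style.haveILetI false

noncomputable section

open Finset

namespace FA.QuadForms

theorem vec_two {G : Type*} [Field G] (a : Fin 2 → ℤ) :
    (fun i => (a i : G)) = ![(a 0 : G), (a 1 : G)] := by
  funext i; fin_cases i <;> rfl

theorem vec_three {G : Type*} [Field G] (a : Fin 3 → ℤ) :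
    (fun i => (a i : G)) = ![(a 0 : G), (a 1 : G), (a 2 : G)] := by
  funext i; fin_cases i <;> rfl

theorem vec_four {G : Type*} [Field G] (a : Fin 4 → ℤ) :
    (fun i => (a i : G)) = ![(a 0 : G), (a 1 : G), (a 2 : G), (a 3 : G)] := by
  funext i; fin_cases i <;> rfl

/-- A non-zero integer that is a square in `ℝ` and in every `ℚ_p` is a square in `ℚ`. -/
theorem isSquare_of_local {N : ℤ} (hN : N ≠ 0) (hR : IsSquare (N : ℝ))
    (h : ∀ (p : ℕ) [Fact p.Prime], IsSquare (N : ℚ_[p])) : IsSquare (N : ℚ) := by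
  obtain ⟨c, s, rfl, hs, hc, hsf⟩ := exists_sq_mul_squarefree hN
  have hcpos : 0 < c := by
    obtain ⟨r, hr⟩ := hR
    have h1 : (0 : ℝ) ≤ ((c * s ^ 2 : ℤ) : ℝ) := hr ▸ mul_self_nonneg r
    have h2 : 0 ≤ c * s ^ 2 := by exact_mod_cast h1
    exact lt_of_le_of_ne (nonneg_of_mul_nonneg_left h2 (by positivity)) hc.symm
  have hc1 : c.natAbs = 1 := by
    by_contra hne
    obtain ⟨p, hp, hpc⟩ := Nat.exists_prime_and_dvd hne
    haveI := Fact.mk hp
    obtain ⟨r, hr⟩ := h p
    have hs0 : (s : ℚ_[p]) ≠ 0 := Int.cast_ne_zero.2 hs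
    have hc0 : (c : ℚ_[p]) ≠ 0 := Int.cast_ne_zero.2 hc
    have hsq : (c : ℚ_[p]) = (r / s) * (r / s) := by
      rw [div_mul_div_comm, ← hr, Int.cast_mul, Int.cast_pow, eq_div_iff (mul_ne_zero hs0 hs0)]
      ring
    have hw : r / (s : ℚ_[p]) ≠ 0 := fun e => hc0 (by rw [hsq, e, mul_zero])
    obtain ⟨u, rfl⟩ := Int.natCast_dvd.2 hpc
    have hu : ¬(p : ℤ) ∣ u := fun hu => hsf p hp (by rw [pow_two]; exact mul_dvd_mul_left _ hu)
    have hval := congrArg Padic.valuation hsq
    rw [Padic.valuation_intCast, Padic.valuation_mul hw hw, (unitPart_prime_mul hu).1] at hval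
    omega
  have hc' : c = 1 := by omega
  subst hc'
  exact ⟨s, by push_cast; ring⟩

/-- The Hasse principle for diagonal forms with non-zero integral coefficients. -/
theorem isotropic_of_local_int : ∀ (n : ℕ) (c : Fin n → ℤ), (∀ i, c i ≠ 0) →
    LocalIsotropic c → Isotropic fun i => (c i : ℚ)
  | 0, c, _, h => by
    obtain ⟨x, hx, -⟩ := h.1
    exact absurd (Subsingleton.elim x 0) hx
  | 1, c, hc, h => by
    obtain ⟨x, hx, he⟩ := h.1
    simp [hc 0] at he
    exact absurd (funext fun i => by rw [Subsingleton.elim i 0, he]; rfl) hx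
  | 2, c, hc, h => by
    rw [vec_two, isotropic_two_iff (Int.cast_ne_zero.2 (hc 0))]
    have hN : -(c 0 * c 1) ≠ 0 := neg_ne_zero.2 (mul_ne_zero (hc 0) (hc 1))
    have hR : IsSquare ((-(c 0 * c 1) : ℤ) : ℝ) := by
      have := h.1
      rw [vec_two, isotropic_two_iff (Int.cast_ne_zero.2 (hc 0))] at this
      push_cast
      exact this
    have hp : ∀ (p : ℕ) [Fact p.Prime], IsSquare ((-(c 0 * c 1) : ℤ) : ℚ_[p]) := fun p _ => by
      have := h.2 p
      rw [vec_two, isotropic_two_iff (Int.cast_ne_zero.2 (hc 0))] at this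
      push_cast
      exact this
    have := isSquare_of_local hN hR hp
    push_cast at this
    exact this
  | 3, c, hc, h => by
    haveI : Fact (Nat.Prime 3) := ⟨Nat.prime_three⟩
    rw [vec_three]
    refine isotropic_three_of_others (hc 0) (hc 1) (hc 2) (q := 3) (by norm_num) ?_ fun p _ _ => ?_
    · have := h.1; rwa [vec_three] at this
    · have := h.2 p; rwa [vec_three] at this
  | 4, c, hc, h => by
    rw [vec_four]
    refine isotropic_four_of_local (hc 0) (hc 1) (hc 2) (hc 3) ?_ fun p _ => ?_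
    · have := h.1; rwa [vec_four] at this
    · have := h.2 p; rwa [vec_four] at this
  | n + 5, c, hc, h =>
    isotropic_succ (n := n + 3) (by omega) (fun g hg hl => isotropic_of_local_int (n + 4) g hg hl)
      c hc h

/-- **Hasse–Minkowski for diagonal forms.** -/
theorem hasseMinkowski_diagonal {ι : Type*} [Fintype ι] (a : ι → ℚ) :
    Isotropic a ↔ Isotropic (fun i => (a i : ℝ)) ∧
      ∀ (p : ℕ) [Fact p.Prime], Isotropic (fun i => (a i : ℚ_[p])) := by
  classical
  constructor
  · exact fun h => ⟨h.map (Rat.castHom ℝ), fun p _ => h.map (Rat.castHom ℚ_[p])⟩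
  rintro ⟨hR, hp⟩
  by_cases h0 : ∃ i, a i = 0
  · obtain ⟨i, hi⟩ := h0
    exact Isotropic.of_eq_zero hi
  push Not at h0
  set c : ι → ℤ := fun i => (a i).num * (a i).den with hc
  have hca : ∀ i, (c i : ℚ) = a i * ((a i).den : ℚ) ^ 2 := fun i => by
    rw [hc, pow_two, ← mul_assoc, Rat.mul_den_eq_num]
    push_cast
    rfl
  have hden : ∀ i, ((a i).den : ℚ) ≠ 0 := fun i => Nat.cast_ne_zero.2 (a i).den_nz
  have hc0 : ∀ i, c i ≠ 0 := fun i =>
    mul_ne_zero (Rat.num_ne_zero.2 (h0 i)) (Int.natCast_ne_zero.2 (a i).den_nz)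
  have transfer : ∀ {K : Type} [Field K] [CharZero K],
      Isotropic (fun i => (a i : K)) → Isotropic fun i => (c i : K) := by
    intro K _ _ hK
    refine Isotropic.of_sq (fun i => ((a i).den : K)⁻¹)
      (fun i => inv_ne_zero (Nat.cast_ne_zero.2 (a i).den_nz)) (fun i => ?_) hK
    have e := congrArg (Rat.cast : ℚ → K) (hca i)
    push_cast at e
    rw [e, inv_pow, mul_assoc, mul_inv_cancel₀ (pow_ne_zero 2 (Nat.cast_ne_zero.2 (a i).den_nz)),
      mul_one]
  set e := Fintype.equivFin ι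
  have hloc : LocalIsotropic c := ⟨transfer hR, fun p _ => transfer (hp p)⟩
  have := isotropic_of_local_int _ (fun i => c (e.symm i)) (fun i => hc0 _) (hloc.comp_equiv e)
  refine Isotropic.of_sq (fun i => ((a i).den : ℚ)) hden hca ?_
  exact Isotropic.of_injective e.symm e.symm.injective this

end FA.QuadForms

end
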