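import Fermat.Agent.QuadForms.Approximation
import Fermat.Agent.QuadForms.Ternary

/-!
# The Hasse principle for quaternary forms

A common value of the two binary halves is built with Dirichlet's theorem from its local square
classes; reciprocity takes care of the auxiliary prime.
-/

set_option autoImplicit false
set_option linter.style.haveILetI false

noncomputable section

open Finset

namespace FA.QuadForms

variable {F : Type*} [Field F]

/-- The two halves of an isotropic quaternary form have a common non-zero value. -/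
theorem exists_common_value [CharZero F] {a b c d : F} (ha : a ≠ 0) (hc : c ≠ 0)
    (h : Isotropic ![a, b, c, d]) :
    ∃ t : F, t ≠ 0 ∧ Isotropic ![a, b, -t] ∧ Isotropic ![c, d, t] := by
  obtain ⟨x, hx, he⟩ := h
  simp only [Fin.sum_univ_four, Matrix.cons_val_zero, Matrix.cons_val_one, Matrix.cons_val] at he
  rcases eq_or_ne (a * x 0 ^ 2 + b * x 1 ^ 2) 0 with h0 | h0
  · rcases (show (x 0 ≠ 0 ∨ x 1 ≠ 0) ∨ (x 0 = 0 ∧ x 1 = 0) by tauto) with hne | ⟨e0, e1⟩
    · refine ⟨-c, neg_ne_zero.2 hc, ⟨![x 0, x 1, 0], fun e => ?_, ?_⟩,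
        ⟨![1, 0, 1], fun e => ?_, ?_⟩⟩
      · rcases hne with h' | h'
        · exact h' (by simpa using congrFun e 0)
        · exact h' (by simpa using congrFun e 1)
      · simp only [Fin.sum_univ_three, Matrix.cons_val_zero, Matrix.cons_val_one, Matrix.cons_val]
        linear_combination h0
      · exact one_ne_zero (α := F) (by simpa using congrFun e 0)
      · simp only [Fin.sum_univ_three, Matrix.cons_val_zero, Matrix.cons_val_one, Matrix.cons_val]
        ring
    · refine ⟨a, ha, ⟨![1, 0, 1], fun e => ?_, ?_⟩, ⟨![x 2, x 3, 0], fun e => hx ?_, ?_⟩⟩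
      · exact one_ne_zero (α := F) (by simpa using congrFun e 0)
      · simp only [Fin.sum_univ_three, Matrix.cons_val_zero, Matrix.cons_val_one, Matrix.cons_val]
        ring
      · have e2 : x 2 = 0 := by simpa using congrFun e 0
        have e3 : x 3 = 0 := by simpa using congrFun e 1
        funext i
        fin_cases i <;> assumption
      · simp only [Fin.sum_univ_three, Matrix.cons_val_zero, Matrix.cons_val_one, Matrix.cons_val]
        linear_combination he - h0
  · refine ⟨a * x 0 ^ 2 + b * x 1 ^ 2, h0, ⟨![x 0, x 1, 1], fun e => ?_, ?_⟩,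
      ⟨![x 2, x 3, 1], fun e => ?_, ?_⟩⟩
    · exact one_ne_zero (α := F) (by simpa using congrFun e 2)
    · simp only [Fin.sum_univ_three, Matrix.cons_val_zero, Matrix.cons_val_one, Matrix.cons_val]
      ring
    · exact one_ne_zero (α := F) (by simpa using congrFun e 2)
    · simp only [Fin.sum_univ_three, Matrix.cons_val_zero, Matrix.cons_val_one, Matrix.cons_val]
      linear_combination he

theorem isotropic_three_mul_sq {a b t s : F} (hs : s ≠ 0)
    (h : Isotropic ![a, b, t * s ^ 2]) : Isotropic ![a, b, t] :=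
  Isotropic.of_sq ![1, 1, s] (fun i => by fin_cases i <;> simp [hs])
    (fun i => by fin_cases i <;> simp) h

theorem map_three {G : Type*} [Field G] (f : ℤ → G) (a b c : ℤ) :
    (fun i => f (![a, b, c] i)) = ![f a, f b, f c] := by
  funext i; fin_cases i <;> rfl

/-- A ternary form that is isotropic at all places but one odd prime is isotropic over `ℚ`. -/
theorem isotropic_three_of_others {a b c : ℤ} (ha : a ≠ 0) (hb : b ≠ 0) (hc : c ≠ 0) {q : ℕ}
    [Fact q.Prime] (h2 : q ≠ 2) (hR : Isotropic ![(a : ℝ), (b : ℝ), (c : ℝ)])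
    (h : ∀ (p : ℕ) [Fact p.Prime], p ≠ q → Isotropic ![(a : ℚ_[p]), (b : ℚ_[p]), (c : ℚ_[p])]) :
    Isotropic ![(a : ℚ), (b : ℚ), (c : ℚ)] := by
  have key : ∀ {K : Type} [Field K] [CharZero K], Isotropic ![(a : K), (b : K), (c : K)] ↔
      Iso3 ((-(a * c) : ℤ) : K) ((-(b * c) : ℤ) : K) := by
    intro K _ _
    have hcK : (c : K) ≠ 0 := Int.cast_ne_zero.2 hc
    rw [isotropic_three_iff hcK]
    have e : ∀ a : ℤ, -(a : K) / c * (c : K) ^ 2 = ((-(a * c) : ℤ) : K) := fun a => by
      push_cast; field_simp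
    rw [← e, ← e]
    exact ⟨fun h => h.mul_sq hcK hcK, fun h => h.of_sq hcK hcK⟩
  have ha' : -(a * c) ≠ 0 := neg_ne_zero.2 (mul_ne_zero ha hc)
  have hb' : -(b * c) ≠ 0 := neg_ne_zero.2 (mul_ne_zero hb hc)
  exact key.2 (iso3_of_local _ _ ha' hb' (localIso3_of_others ha' hb' h2 (key.1 hR)
    fun p _ hp => key.1 (h p hp)))

/-- **The Hasse principle for quaternary forms.** -/
theorem isotropic_four_of_local {a b c d : ℤ} (ha : a ≠ 0) (hb : b ≠ 0) (hc : c ≠ 0) (hd : d ≠ 0)
    (hR : Isotropic ![(a : ℝ), (b : ℝ), (c : ℝ), (d : ℝ)])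
    (h : ∀ (p : ℕ) [Fact p.Prime],
      Isotropic ![(a : ℚ_[p]), (b : ℚ_[p]), (c : ℚ_[p]), (d : ℚ_[p])]) :
    Isotropic ![(a : ℚ), (b : ℚ), (c : ℚ), (d : ℚ)] := by
  classical
  set S : Finset ℕ := insert 2 (a * b * c * d).natAbs.primeFactors with hS
  have hSp : ∀ p ∈ S, p.Prime := fun p hp => by
    rcases mem_insert.1 hp with rfl | hp
    · exact Nat.prime_two
    · exact Nat.prime_of_mem_primeFactors hp
  -- the local square classes of a common value
  have hloc : ∀ p ∈ S, ∃ (α : ℕ) (r : ℤ), ¬(p : ℤ) ∣ r ∧ ∀ [Fact p.Prime], ∀ r' : ℤ,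
      (p : ℤ) ^ 3 ∣ r' - r → Isotropic ![(a : ℚ_[p]), (b : ℚ_[p]),
        -((r' : ℚ_[p]) * (p : ℚ_[p]) ^ α)] ∧
        Isotropic ![(c : ℚ_[p]), (d : ℚ_[p]), (r' : ℚ_[p]) * (p : ℚ_[p]) ^ α] := by
    intro p hp
    haveI := Fact.mk (hSp p hp)
    obtain ⟨t, ht0, ht1, ht2⟩ := exists_common_value (Int.cast_ne_zero.2 ha)
      (Int.cast_ne_zero.2 hc) (h p)
    obtain ⟨α, r, -, hr, hcl⟩ := exists_squareClass ht0
    refine ⟨α, r, hr, fun r' hr' => ?_⟩
    obtain ⟨s, hs, rfl⟩ := hcl r' hr'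
    exact ⟨isotropic_three_mul_sq hs (by rwa [neg_mul]), isotropic_three_mul_sq hs ht2⟩
  choose! α r hr hcl using hloc
  obtain ⟨tR, htR0, htR1, htR2⟩ := exists_common_value (Int.cast_ne_zero.2 ha)
    (Int.cast_ne_zero.2 hc) hR
  set ε : ℤ := if 0 < tR then 1 else -1 with hε
  have hε1 : ε = 1 ∨ ε = -1 := by rw [hε]; split_ifs <;> simp
  -- the prime
  set C : ℕ → ℤ := fun p => ε * ∏ q ∈ S.erase p, (q : ℤ) ^ α q with hC
  have hCp : ∀ p ∈ S, ¬(p : ℤ) ∣ C p := by
    intro p hp hdvd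
    have hP : Prime (p : ℤ) := Nat.prime_iff_prime_int.1 (hSp p hp)
    rcases hP.dvd_or_dvd hdvd with h' | h'
    · rcases hε1 with e | e <;> rw [e] at h'
      · exact hP.not_isUnit (isUnit_of_dvd_one h')
      · exact hP.not_isUnit (isUnit_of_dvd_one ((dvd_neg).1 h'))
    · obtain ⟨w, hw, hpw⟩ := hP.exists_mem_finset_dvd h'
      exact (mem_erase.1 hw).1 ((Nat.prime_dvd_prime_iff_eq (hSp p hp)
        (hSp w (mem_erase.1 hw).2)).1 (Int.natCast_dvd_natCast.1 (hP.dvd_of_dvd_pow hpw))).symm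
  have hinv : ∀ p ∈ S, ∃ w : ℤ, ¬(p : ℤ) ∣ w ∧ (p : ℤ) ^ 3 ∣ C p * w - r p := by
    intro p hp
    have hP : Prime (p : ℤ) := Nat.prime_iff_prime_int.1 (hSp p hp)
    obtain ⟨u, v, huv⟩ := (IsCoprime.pow_right (n := 3)
      ((hP.irreducible.coprime_iff_not_dvd).2 (hCp p hp)).symm : IsCoprime (C p) ((p : ℤ) ^ 3))
    refine ⟨u * r p, fun h' => hr p hp ?_, ⟨-v * r p, by linear_combination (r p) * huv⟩⟩
    refine (dvd_add (dvd_mul_of_dvd_right h' (C p)) (dvd_mul_of_dvd_right
      (dvd_pow_self (p : ℤ) three_ne_zero) (v * r p))).trans (dvd_of_eq ?_)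
    linear_combination (r p) * huv
  choose! w hw1 hw2 using hinv
  obtain ⟨q, hqB, hq, hqcong⟩ := exists_prime_congr S hSp w hw1 ((a * b * c * d).natAbs + 2)
  haveI := Fact.mk hq
  have hq2 : q ≠ 2 := by omega
  set T : ℤ := ε * (∏ p ∈ S, (p : ℤ) ^ α p) * q with hT
  have hT0 : T ≠ 0 := mul_ne_zero (mul_ne_zero (by rcases hε1 with e | e <;> rw [e] <;> norm_num)
    (prod_ne_zero_iff.2 fun p hp => pow_ne_zero _ (Int.natCast_ne_zero.2 (hSp p hp).ne_zero)))
    (Int.natCast_ne_zero.2 hq.ne_zero)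
  have hlocal : ∀ (p : ℕ) [Fact p.Prime], p ≠ q →
      Isotropic ![(a : ℚ_[p]), (b : ℚ_[p]), ((-T : ℤ) : ℚ_[p])] ∧
        Isotropic ![(c : ℚ_[p]), (d : ℚ_[p]), (T : ℚ_[p])] := by
    intro p hp hpq
    by_cases hpS : p ∈ S
    · have hcong : (p : ℤ) ^ 3 ∣ C p * q - r p :=
        (dvd_add (dvd_mul_of_dvd_right (hqcong p hpS) (C p)) (hw2 p hpS)).trans
          (dvd_of_eq (by ring))
      have hk := hcl p hpS (C p * q) hcong
      have e : (T : ℚ_[p]) = ((C p * q : ℤ) : ℚ_[p]) * (p : ℚ_[p]) ^ α p := by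
        rw [hT, ← mul_prod_erase S _ hpS, hC]
        push_cast
        ring
      rw [Int.cast_neg, e]
      exact hk
    · have hp2 : p ≠ 2 := fun e => hpS (e ▸ mem_insert_self _ _)
      have hP : Prime (p : ℤ) := Nat.prime_iff_prime_int.1 hp.out
      have hnd : ¬(p : ℤ) ∣ a * b * c * d := fun h' => hpS (mem_insert_of_mem
        (Nat.mem_primeFactors.2 ⟨hp.out, Int.natCast_dvd.1 h', by
          simp [ha, hb, hc, hd]⟩))
      have hTp : ¬(p : ℤ) ∣ T := by
        rw [hT]
        intro h'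
        rcases hP.dvd_or_dvd h' with h' | h'
        · rcases hP.dvd_or_dvd h' with h' | h'
          · rcases hε1 with e | e <;> rw [e] at h'
            · exact hP.not_isUnit (isUnit_of_dvd_one h')
            · exact hP.not_isUnit (isUnit_of_dvd_one ((dvd_neg).1 h'))
          · obtain ⟨v, hv, hpv⟩ := hP.exists_mem_finset_dvd h'
            exact hpS ((Nat.prime_dvd_prime_iff_eq hp.out (hSp v hv)).1
              (Int.natCast_dvd_natCast.1 (hP.dvd_of_dvd_pow hpv)) ▸ hv)
        · exact hpq ((Nat.prime_dvd_prime_iff_eq hp.out hq).1 (Int.natCast_dvd_natCast.1 h'))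
      exact ⟨isotropic_three_units hp2 (fun e => hnd (e.trans (Dvd.intro (b * c * d) (by ring))))
          (fun e => hnd (e.trans (Dvd.intro (a * c * d) (by ring)))) (by rwa [dvd_neg]),
        isotropic_three_units hp2 (fun e => hnd (e.trans (Dvd.intro (a * b * d) (by ring))))
          (fun e => hnd (e.trans (Dvd.intro (a * b * c) (by ring)))) hTp⟩
  have hRsign : ∃ s : ℝ, s ≠ 0 ∧ (T : ℝ) = tR * s ^ 2 := by
    have hpos : 0 < (T : ℝ) / tR := by
      have h1 : 0 < ((∏ p ∈ S, (p : ℤ) ^ α p) : ℝ) * q :=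
        mul_pos (prod_pos fun p hp => by have := (hSp p hp).pos; positivity)
          (Nat.cast_pos.2 hq.pos)
      rw [hT, hε]
      push_cast
      split_ifs with hpos
      · rw [one_mul]; exact div_pos h1 hpos
      · rw [neg_mul, one_mul, neg_mul]
        exact div_pos_of_neg_of_neg (neg_lt_zero.2 h1) (lt_of_le_of_ne (not_lt.1 hpos) htR0)
    refine ⟨√((T : ℝ) / tR), (Real.sqrt_pos.2 hpos).ne', ?_⟩
    rw [Real.sq_sqrt hpos.le]
    field_simp
  obtain ⟨s, hs, hTs⟩ := hRsign
  have g1 := isotropic_three_of_others ha hb (neg_ne_zero.2 hT0) hq2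
    (by
      refine isotropic_three_mul_sq (inv_ne_zero hs) ?_
      rw [Int.cast_neg, hTs]
      rw [show -(tR * s ^ 2) * s⁻¹ ^ 2 = -tR by field_simp]
      exact htR1) fun p _ hpq => (hlocal p hpq).1
  have g2 := isotropic_three_of_others hc hd hT0 hq2
    (by
      refine isotropic_three_mul_sq (inv_ne_zero hs) ?_
      rw [hTs, show tR * s ^ 2 * s⁻¹ ^ 2 = tR by field_simp]
      exact htR2) fun p _ hpq => (hlocal p hpq).2
  obtain ⟨x, hx, hxe⟩ := g1
  obtain ⟨y, hy, hye⟩ := g2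
  simp only [Fin.sum_univ_three, Matrix.cons_val_zero, Matrix.cons_val_one, Matrix.cons_val,
    Int.cast_neg] at hxe hye
  rcases eq_or_ne (x 2) 0 with hx2 | hx2
  · refine ⟨![x 0, x 1, 0, 0], fun e => hx (funext fun i => ?_), ?_⟩
    · fin_cases i
      · simpa using congrFun e 0
      · simpa using congrFun e 1
      · exact hx2
    · simp only [Fin.sum_univ_four, Matrix.cons_val_zero, Matrix.cons_val_one, Matrix.cons_val]
      rw [hx2] at hxe
      linear_combination hxe
  rcases eq_or_ne (y 2) 0 with hy2 | hy2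
  · refine ⟨![0, 0, y 0, y 1], fun e => hy (funext fun i => ?_), ?_⟩
    · fin_cases i
      · simpa using congrFun e 2
      · simpa using congrFun e 3
      · exact hy2
    · simp only [Fin.sum_univ_four, Matrix.cons_val_zero, Matrix.cons_val_one, Matrix.cons_val]
      rw [hy2] at hye
      linear_combination hye
  refine ⟨![x 0 * y 2, x 1 * y 2, y 0 * x 2, y 1 * x 2], fun e => ?_, ?_⟩
  · have e0 := congrFun e 0
    have e1 := congrFun e 1
    simp [hy2] at e0 e1
    rw [e0, e1] at hxe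
    simp [hT0, hx2] at hxe
  · simp only [Fin.sum_univ_four, Matrix.cons_val_zero, Matrix.cons_val_one, Matrix.cons_val]
    linear_combination (y 2) ^ 2 * hxe + (x 2) ^ 2 * hye

end FA.QuadForms

end
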